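/-
M1 (S44), chapter MON (helper43): **the global wild Picard–Lefschetz statement (T3), slope form**,
in the adelic language of `Car/Defs43`.

`σ` an automorphism of the model over `L` with `σ ≡ id mod π ^ (b+1)` on the Gauss rings and
`σ π = π (1 + θ₀ π ^ b)`, `θ₀` a unit of `R` (a wild inertia element of lower break `b ≥ 1`).
`D` a divisor of `F / K` having a local equation UP TO VERTICAL components at every closed point.
If the class of `σ D - D` lies in `Cart (b + 1)` (depth `≥ b + 1`), then the slopes of `D` at the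
nodes (`λ_s = v₂(h_s) - v₁(h_s)` for a local equation `h_s`) are all congruent modulo the residue
characteristic `p`.

The proof is direct: no `H¹`, no toric classes, no Čech dictionary.  With `σ D - D - E = div f`
(`E` of level `b + 1`), at every closed point `f = (σ h / h) · e⁻¹ · u` with `u` a unit of the local
ring; one shows by induction `f ≡ a_m mod π ^ m (O₁ ⊓ O₂)`, `a_m ∈ R`, for `m ≤ b` ("a function
regular at every closed point of a component is constant"), and at `m = b` the two constants on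
the two components differ by `λ_s θ₀ a_b` at EVERY node `s`.

Main results: `WildData.slopes_const` (divisor form, data `D, E, f` given) and
`slopes_const_of_mem_cart` (class form: hypothesis `σ • [D] - [D] ∈ Cart (b + 1)`).  The model enters
through the structure `Frame` only (uniformisers, integrality of the Gauss valuations, local
saturation, Hartogs at closed points, constancy of functions regular on a whole component).
-/
import Mathlib
import Fermat.Agent.M1.Car.Defs43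
import Fermat.Agent.M1.Node.Thick25

set_option autoImplicit false

namespace Fermat.Agent.M1.Mon.WildPL43

open AlgebraicCurve Fermat.Agent.ES.N34.NodalCore13 Fermat.Agent.M1.Car.Defs43
  Fermat.Agent.M1.Node.Thick25

section Local

variable {F : Type*} [Field F]

/-- In a valuation subring with uniformiser `ϖ`, `1 + ϖ c` is a unit. -/
theorem one_add_inv_mem {O : ValuationSubring F} {ϖ : F} (hu : IsUnifOf O ϖ) (hϖ : ϖ ∈ O)
    {c : F} (hc : c ∈ O) : (1 + ϖ * c)⁻¹ ∈ O := by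
  by_contra h
  have hmem : 1 + ϖ * c ∈ O := O.add_mem _ _ O.one_mem (O.mul_mem _ _ hϖ hc)
  obtain ⟨c', hc', hcc⟩ := hu.unif _ hmem h
  apply hu.nonunit
  have hp0 := hu.ne_zero
  have : ϖ⁻¹ = c' - c := by
    field_simp
    linear_combination hcc
  rw [this]
  exact sub_mem hc' hc

/-- `(1 + x) ^ a = 1 + a x + x ^ 2 q` for an integer exponent `a`, when `1 + x` is a unit of the
subring `S ∋ x`. -/
theorem one_add_zpow_eq (S : Subring F) {x : F} (hx : x ∈ S) (hinv : (1 + x)⁻¹ ∈ S)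
    (h0 : 1 + x ≠ 0) (a : ℤ) :
    ∃ q ∈ S, (1 + x) ^ a = 1 + (a : F) * x + x ^ 2 * q := by
  obtain ⟨n, rfl | rfl⟩ := a.eq_nat_or_neg
  · obtain ⟨q, hq, hqe⟩ := one_add_pow_eq S hx n
    exact ⟨q, hq, by rw [zpow_natCast, hqe]; push_cast; ring⟩
  · -- `(1 + x)⁻¹ = 1 + x'` with `x' = x * (-1 + x (1+x)⁻¹)`
    set ε' : F := (1 + x)⁻¹ with hε'
    set x' : F := x * (-1 + x * ε') with hx'
    have hx'S : x' ∈ S :=
      S.mul_mem hx (S.add_mem (S.neg_mem S.one_mem) (S.mul_mem hx hinv))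
    have hε'x : ε' = 1 + x' := by
      rw [hx', hε']
      field_simp
      ring
    obtain ⟨q, hq, hqe⟩ := one_add_pow_eq S hx'S n
    refine ⟨(n : F) * ε' + (-1 + x * ε') ^ 2 * q,
      S.add_mem (S.mul_mem (natCast_mem S n) hinv)
        (S.mul_mem (S.pow_mem (S.add_mem (S.neg_mem S.one_mem) (S.mul_mem hx hinv)) 2) hq), ?_⟩
    have hpow : (1 + x) ^ (-(n : ℤ)) = (1 + x') ^ n := by
      rw [zpow_neg, zpow_natCast, ← inv_pow, ← hε', ← hε'x]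
    rw [hpow, hqe, hx']
    push_cast
    ring

end Local

section Ratio

variable {K F : Type*} [Field K] [Field F] [Algebra K F]

/-- **Wild Picard–Lefschetz on one valuation** (cf. `RamDepth13.ratio_zpow`): if `σ ≡ id` modulo
`ϖ ^ (b+1)` on `O`, `σ ϖ = ϖ (1 + θ ϖ ^ b)`, `b ≥ 1`, then for `h = ϖ ^ a u`, `u` a unit of `O`,
`σ h / h ≡ 1 + a θ ϖ ^ b mod ϖ ^ (b+1)`. -/
theorem ratio_zpow (σ : SemilinearAut K F) {O : ValuationSubring F} {ϖ : F} (hu : IsUnifOf O ϖ)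
    (hϖ : ϖ ∈ O) {b : ℕ} (hb : 1 ≤ b)
    (hram : ∀ x ∈ O, ∃ c ∈ O, σ • x - x = ϖ ^ (b + 1) * c) {θ : F} (hθ : θ ∈ O)
    (hπσ : σ • ϖ = ϖ * (1 + θ * ϖ ^ b)) {a : ℤ} {u h : F} (hu1 : u ∈ O) (hu2 : u⁻¹ ∈ O)
    (hu0 : u ≠ 0) (hh : h = ϖ ^ a * u) :
    ∃ c ∈ O, σ • h / h = 1 + (a : F) * θ * ϖ ^ b + ϖ ^ (b + 1) * c := by
  obtain ⟨k, rfl⟩ : ∃ k, b = k + 1 := ⟨b - 1, by omega⟩
  have hϖ0 : ϖ ≠ 0 := hu.ne_zero
  set x : F := θ * ϖ ^ (k + 1) with hx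
  have hxO : x ∈ O := O.mul_mem _ _ hθ (pow_mem hϖ _)
  have hεinv : (1 + x)⁻¹ ∈ O := by
    have : x = ϖ * (θ * ϖ ^ k) := by rw [hx]; ring
    rw [this]
    exact one_add_inv_mem hu hϖ (O.mul_mem _ _ hθ (pow_mem hϖ k))
  have hε0 : 1 + x ≠ 0 := by
    intro h0
    have h1 : σ • ϖ = 0 := by rw [hπσ, h0, mul_zero]
    exact hϖ0 (by simpa using h1)
  obtain ⟨q, hq, hqe⟩ := one_add_zpow_eq O.toSubring hxO hεinv hε0 a
  obtain ⟨c, hc, hcu⟩ := hram u hu1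
  have hσh : σ • h = (ϖ * (1 + x)) ^ a * σ • u := by
    rw [hh, smul_mul', ← hπσ]
    congr 1
    rw [SemilinearAut.smul_def, SemilinearAut.smul_def, map_zpow₀]
  have hzp : ϖ ^ a ≠ 0 := zpow_ne_zero a hϖ0
  refine ⟨θ ^ 2 * ϖ ^ k * q + c * u⁻¹ * (1 + x) ^ a, ?_, ?_⟩
  · refine O.add_mem _ _ (O.mul_mem _ _ (O.mul_mem _ _ (pow_mem hθ 2) (pow_mem hϖ k)) hq)
      (O.mul_mem _ _ (O.mul_mem _ _ hc hu2) ?_)
    rw [hqe]
    exact O.add_mem _ _ (O.add_mem _ _ O.one_mem (O.mul_mem _ _ (intCast_mem O a) hxO))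
      (O.mul_mem _ _ (pow_mem hxO 2) hq)
  · have hσu : σ • u = u + ϖ ^ (k + 1 + 1) * c := by rw [← hcu]; ring
    rw [hσh, hh, mul_zpow, hσu]
    have hratio : ϖ ^ a * (1 + x) ^ a * (u + ϖ ^ (k + 1 + 1) * c) / (ϖ ^ a * u) =
        (1 + x) ^ a * (1 + ϖ ^ (k + 1 + 1) * c * u⁻¹) := by
      field_simp
    rw [hratio]
    have hx2 : x ^ 2 = ϖ ^ (k + 1 + 1) * (θ ^ 2 * ϖ ^ k) := by rw [hx]; ring
    have hax : (a : F) * θ * ϖ ^ (k + 1) = (a : F) * x := by rw [hx]; ring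
    rw [hax]
    have : (1 + x) ^ a * (1 + ϖ ^ (k + 1 + 1) * c * u⁻¹) =
        (1 + (a : F) * x + x ^ 2 * q) + ϖ ^ (k + 1 + 1) * (c * u⁻¹ * (1 + x) ^ a) := by
      rw [← hqe]; ring
    rw [this, hx2]
    ring

end Ratio

section Global

variable {R K F : Type*} [CommRing R] [Field K] [Field F] [Algebra K F] [Algebra R F]

/-- `w ∈ B_𝔪` (field form). -/
def InLocal (B : Subalgebra R F) (𝔪 : Ideal B) (w : F) : Prop :=
  ∃ a d : B, d ∉ 𝔪 ∧ w * (d : F) = (a : F)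

theorem InLocal.of_mem {B : Subalgebra R F} {𝔪 : Ideal B} (h𝔪 : 𝔪 ≠ ⊤) {w : F} (hw : w ∈ B) :
    InLocal B 𝔪 w :=
  ⟨⟨w, hw⟩, 1, fun h1 => h𝔪 ((Ideal.eq_top_iff_one 𝔪).mpr h1), by simp⟩

theorem InLocal.add {B : Subalgebra R F} {𝔪 : Ideal B} [h𝔪 : 𝔪.IsPrime] {w w' : F}
    (hw : InLocal B 𝔪 w) (hw' : InLocal B 𝔪 w') : InLocal B 𝔪 (w + w') := by
  obtain ⟨a, d, hd, h⟩ := hw
  obtain ⟨a', d', hd', h'⟩ := hw'
  refine ⟨a * d' + a' * d, d * d', fun hh => (h𝔪.mem_or_mem hh).elim hd hd', ?_⟩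
  push_cast
  rw [← h, ← h']; ring

theorem InLocal.neg {B : Subalgebra R F} {𝔪 : Ideal B} {w : F}
    (hw : InLocal B 𝔪 w) : InLocal B 𝔪 (-w) := by
  obtain ⟨a, d, hd, h⟩ := hw
  exact ⟨-a, d, hd, by push_cast; rw [← h]; ring⟩

theorem InLocal.sub {B : Subalgebra R F} {𝔪 : Ideal B} [h𝔪 : 𝔪.IsPrime] {w w' : F}
    (hw : InLocal B 𝔪 w) (hw' : InLocal B 𝔪 w') : InLocal B 𝔪 (w - w') := by
  rw [sub_eq_add_neg]; exact hw.add hw'.neg

/-- An element of `B_𝔪` lying in `ϖ O_j` for a branch `j` through `𝔪` is a non-unit: its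
numerator lies in `𝔪`. -/
theorem InLocal.num_mem {π : R} {B : Subalgebra R F} {𝔪 : Ideal B} {Oj : ValuationSubring F}
    (leO : ∀ x ∈ B, x ∈ Oj) (hon : ¬ OffBranch π B Oj 𝔪) {w : F} {a d : B}
    (h : w * (d : F) = (a : F)) (hw : ∃ c ∈ Oj, w = algebraMap R F π * c) : a ∈ 𝔪 := by
  by_contra ha
  apply hon
  obtain ⟨c, hc, hwc⟩ := hw
  exact ⟨a, ha, c * (d : F), Oj.mul_mem _ _ hc (leO _ d.2), by rw [← h, hwc]; ring⟩

/-- **Comparison at a node**: if `w ∈ B_𝔪` is congruent to the constant `s₁` on the branch `1` and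
to `s₂` on the branch `2`, both through `𝔪`, then `π ∣ s₁ - s₂`. -/
theorem node_compare {π : R} {B : Subalgebra R F} {𝔪 : Ideal B} {O1 O2 : ValuationSubring F}
    (h𝔪 : 𝔪.IsMaximal) (dvrR : ∀ r : R, r ≠ 0 → ∃ (k : ℕ) (v : Rˣ), r = π ^ k * v)
    (le1 : ∀ x ∈ B, x ∈ O1) (le2 : ∀ x ∈ B, x ∈ O2)
    (hon1 : ¬ OffBranch π B O1 𝔪) (hon2 : ¬ OffBranch π B O2 𝔪) {w : F} (hw : InLocal B 𝔪 w)
    {s₁ s₂ : R} (h1 : ∃ c ∈ O1, w - algebraMap R F s₁ = algebraMap R F π * c)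
    (h2 : ∃ c ∈ O2, w - algebraMap R F s₂ = algebraMap R F π * c) : π ∣ s₁ - s₂ := by
  have hp : 𝔪.IsPrime := h𝔪.isPrime
  obtain ⟨a, d, hd, had⟩ := hw
  have e1 : (w - algebraMap R F s₁) * (d : F) = ((a - algebraMap R B s₁ * d : B) : F) := by
    push_cast; rw [← had, sub_mul]
  have e2 : (w - algebraMap R F s₂) * (d : F) = ((a - algebraMap R B s₂ * d : B) : F) := by
    push_cast; rw [← had, sub_mul]
  have m1 := InLocal.num_mem le1 hon1 e1 h1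
  have m2 := InLocal.num_mem le2 hon2 e2 h2
  have hdiff : algebraMap R B (s₁ - s₂) * d ∈ 𝔪 := by
    have : algebraMap R B (s₁ - s₂) * d =
        (a - algebraMap R B s₂ * d) - (a - algebraMap R B s₁ * d) := by
      rw [map_sub]; ring
    rw [this]
    exact 𝔪.sub_mem m2 m1
  have hs : algebraMap R B (s₁ - s₂) ∈ 𝔪 := (hp.mem_or_mem hdiff).resolve_right hd
  by_cases h0 : s₁ - s₂ = 0
  · rw [h0]; exact dvd_zero π
  obtain ⟨k, v, hkv⟩ := dvrR _ h0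
  rcases Nat.eq_zero_or_pos k with rfl | hk
  · exfalso
    rw [pow_zero, one_mul] at hkv
    rw [hkv] at hs
    have hunit : IsUnit (algebraMap R B (v : R)) := (v.isUnit).map _
    exact hp.ne_top (Ideal.eq_top_of_isUnit_mem _ hs hunit)
  · rw [hkv]
    exact Dvd.dvd.mul_right (dvd_pow_self π hk.ne') _

/-- The facts about the model used by the global argument; supplied by NODE / FIB / MOD for the
nodal two-chart model (`B` ranges over the two charts). -/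
structure Frame (π : R) (B0 B1 : Subalgebra R F) (O1 O2 : ValuationSubring F) : Prop where
  unif1 : IsUnifOf O1 (algebraMap R F π)
  unif2 : IsUnifOf O2 (algebraMap R F π)
  le1 : ∀ B : Subalgebra R F, B = B0 ∨ B = B1 → ∀ x ∈ B, x ∈ O1
  le2 : ∀ B : Subalgebra R F, B = B0 ∨ B = B1 → ∀ x ∈ B, x ∈ O2
  /-- every nonzero function has an integral Gauss valuation -/
  vals1 : ∀ z : F, z ≠ 0 → ∃ (a : ℤ) (u : F), u ∈ O1 ∧ u⁻¹ ∈ O1 ∧ z = algebraMap R F π ^ a * u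
  vals2 : ∀ z : F, z ≠ 0 → ∃ (a : ℤ) (u : F), u ∈ O2 ∧ u⁻¹ ∈ O2 ∧ z = algebraMap R F π ^ a * u
  dvrR : ∀ r : R, r ≠ 0 → ∃ (k : ℕ) (v : Rˣ), r = π ^ k * v
  /-- local saturation: `B_𝔪 ∩ π (⋂ O_j) = π B_𝔪`, the intersection over the branches through `𝔪` -/
  sat : ∀ B : Subalgebra R F, B = B0 ∨ B = B1 → ∀ 𝔪 : Ideal B, 𝔪.IsMaximal →
    algebraMap R B π ∈ 𝔪 → ∀ w : F, InLocal B 𝔪 w →
    (OffBranch π B O1 𝔪 ∨ ∃ c ∈ O1, w = algebraMap R F π * c) →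
    (OffBranch π B O2 𝔪 ∨ ∃ c ∈ O2, w = algebraMap R F π * c) →
    ∃ w', InLocal B 𝔪 w' ∧ w = algebraMap R F π * w'
  /-- algebraic Hartogs at a closed point -/
  hart : ∀ B : Subalgebra R F, B = B0 ∨ B = B1 → ∀ 𝔪 : Ideal B, 𝔪.IsMaximal →
    algebraMap R B π ∈ 𝔪 → ∀ w : F, w ≠ 0 →
    (∀ P : Place K F, Through B 𝔪 P → 0 ≤ P.ord w) →
    (OffBranch π B O1 𝔪 ∨ w ∈ O1) → (OffBranch π B O2 𝔪 ∨ w ∈ O2) → InLocal B 𝔪 w
  /-- a function regular at every closed point of the component `1` is constant modulo `π` -/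
  const1 : ∀ g ∈ O1, (∀ B : Subalgebra R F, B = B0 ∨ B = B1 → ∀ 𝔪 : Ideal B, 𝔪.IsMaximal →
      algebraMap R B π ∈ 𝔪 → ¬ OffBranch π B O1 𝔪 →
      ∃ w, InLocal B 𝔪 w ∧ ∃ c ∈ O1, g - w = algebraMap R F π * c) →
    ∃ r : R, ∃ c ∈ O1, g - algebraMap R F r = algebraMap R F π * c
  const2 : ∀ g ∈ O2, (∀ B : Subalgebra R F, B = B0 ∨ B = B1 → ∀ 𝔪 : Ideal B, 𝔪.IsMaximal →
      algebraMap R B π ∈ 𝔪 → ¬ OffBranch π B O2 𝔪 →
      ∃ w, InLocal B 𝔪 w ∧ ∃ c ∈ O2, g - w = algebraMap R F π * c) →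
    ∃ r : R, ∃ c ∈ O2, g - algebraMap R F r = algebraMap R F π * c

/-- From a valuation identity to a unit decomposition. -/
theorem exists_unit_of_val {O : ValuationSubring F} {ϖ h : F} (hϖ0 : ϖ ≠ 0) (hh0 : h ≠ 0) {a : ℤ}
    (hv : O.valuation h = O.valuation ϖ ^ a) :
    ∃ u : F, u ∈ O ∧ u⁻¹ ∈ O ∧ u ≠ 0 ∧ h = ϖ ^ a * u := by
  have hz : ϖ ^ a ≠ 0 := zpow_ne_zero a hϖ0
  have hval : O.valuation (h / ϖ ^ a) = 1 := by
    rw [map_div₀, map_zpow₀, hv]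
    exact div_self (by rw [← map_zpow₀]; exact (Valuation.ne_zero_iff _).mpr hz)
  refine ⟨h / ϖ ^ a, ?_, ?_, div_ne_zero hh0 hz, by field_simp⟩
  · exact (O.valuation_le_one_iff _).mp hval.le
  · rw [← O.valuation_le_one_iff, map_inv₀, hval, inv_one]

/-- One branch of the local analysis at a closed point: with `k = σ h / h`, `e ≡ 1 mod ϖ^(b+1)`,
the function `y' = (e / k - 1) / ϖ ^ b` lies in `O` and `y' + a θ ∈ ϖ O` where `v(h) = a`. -/
theorem branch_analysis (σ : SemilinearAut K F) {O : ValuationSubring F} {ϖ : F}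
    (hu : IsUnifOf O ϖ) (hϖ : ϖ ∈ O) {b : ℕ} (hb : 1 ≤ b)
    (hram : ∀ x ∈ O, ∃ c ∈ O, σ • x - x = ϖ ^ (b + 1) * c) {θ : F} (hθ : θ ∈ O)
    (hπσ : σ • ϖ = ϖ * (1 + θ * ϖ ^ b)) {a : ℤ} {h e : F} (hh0 : h ≠ 0)
    (hv : O.valuation h = O.valuation ϖ ^ a)
    (he : e ≠ 0 ∧ e⁻¹ ∈ O ∧ ∃ c ∈ O, e - 1 = ϖ ^ (b + 1) * c) :
    (σ • h / h)⁻¹ ∈ O ∧ (e / (σ • h / h) - 1) / ϖ ^ b ∈ O ∧
      ∃ c ∈ O, (e / (σ • h / h) - 1) / ϖ ^ b + (a : F) * θ = ϖ * c := by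
  obtain ⟨k', rfl⟩ : ∃ k', b = k' + 1 := ⟨b - 1, by omega⟩
  have hϖ0 : ϖ ≠ 0 := hu.ne_zero
  obtain ⟨u, hu1, hu2, hu0, hhu⟩ := exists_unit_of_val hϖ0 hh0 hv
  obtain ⟨c1, hc1, hk⟩ := ratio_zpow σ hu hϖ hb hram hθ hπσ hu1 hu2 hu0 hhu
  obtain ⟨-, -, c2, hc2, hec⟩ := he
  set k : F := σ • h / h with hkdef
  -- `k = 1 + ϖ * y₀`
  set y : F := (a : F) * θ + ϖ * c1 with hy
  have hyO : y ∈ O :=
    O.add_mem _ _ (O.mul_mem _ _ (intCast_mem O a) hθ) (O.mul_mem _ _ hϖ hc1)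
  have hk' : k = 1 + ϖ * (ϖ ^ k' * y) := by rw [hk, hy]; ring
  have hkinv : k⁻¹ ∈ O := by
    rw [hk']
    exact one_add_inv_mem hu hϖ (O.mul_mem _ _ (pow_mem hϖ k') hyO)
  have hk0 : k ≠ 0 := div_ne_zero (by simpa using hh0) hh0
  have he' : e = 1 + ϖ ^ (k' + 1 + 1) * c2 := by rw [← hec]; ring
  have hpow0 : ϖ ^ (k' + 1) ≠ 0 := pow_ne_zero _ hϖ0
  have hk'' : k = 1 + ϖ ^ (k' + 1) * ((a : F) * θ + ϖ * c1) := by rw [hk]; ring
  clear_value k
  have hy' : (e / k - 1) / ϖ ^ (k' + 1) = (ϖ * c2 - y) * k⁻¹ := by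
    rw [div_eq_iff hpow0, he', hy]
    field_simp
    linear_combination (-1 : F) * hk''
  refine ⟨hkinv, ?_, (c2 - c1 + (a : F) * θ * ϖ ^ k' * y) * k⁻¹, ?_, ?_⟩
  · rw [hy']
    exact O.mul_mem _ _ (sub_mem (O.mul_mem _ _ hϖ hc2) hyO) hkinv
  · exact O.mul_mem _ _ (O.add_mem _ _ (sub_mem hc2 hc1)
      (O.mul_mem _ _ (O.mul_mem _ _ (O.mul_mem _ _ (intCast_mem O a) hθ) (pow_mem hϖ k')) hyO)) hkinv
  · rw [hy', hy]
    field_simp
    linear_combination ((a : F) * θ) * hk''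

namespace Frame

variable {π : R} {B0 B1 : Subalgebra R F} {O1 O2 : ValuationSubring F}

theorem pi_mem1 (M : Frame (K := K) π B0 B1 O1 O2) : algebraMap R F π ∈ O1 :=
  M.le1 B0 (Or.inl rfl) _ (B0.algebraMap_mem π)

theorem pi_mem2 (M : Frame (K := K) π B0 B1 O1 O2) : algebraMap R F π ∈ O2 :=
  M.le2 B0 (Or.inl rfl) _ (B0.algebraMap_mem π)

theorem algebraMap_mem1 (M : Frame (K := K) π B0 B1 O1 O2) (r : R) : algebraMap R F r ∈ O1 :=
  M.le1 B0 (Or.inl rfl) _ (B0.algebraMap_mem r)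

theorem algebraMap_mem2 (M : Frame (K := K) π B0 B1 O1 O2) (r : R) : algebraMap R F r ∈ O2 :=
  M.le2 B0 (Or.inl rfl) _ (B0.algebraMap_mem r)

/-- Iterated local saturation. -/
theorem sat_pow (M : Frame (K := K) π B0 B1 O1 O2) {B : Subalgebra R F} (hB : B = B0 ∨ B = B1)
    {𝔪 : Ideal B} (h𝔪 : 𝔪.IsMaximal) (hπ𝔪 : algebraMap R B π ∈ 𝔪) :
    ∀ (m : ℕ) (z : F), InLocal B 𝔪 (algebraMap R F π ^ m * z) →
      (OffBranch π B O1 𝔪 ∨ z ∈ O1) → (OffBranch π B O2 𝔪 ∨ z ∈ O2) → InLocal B 𝔪 z := by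
  intro m
  induction m with
  | zero => intro z hz _ _; simpa using hz
  | succ m ih =>
    intro z hz h1 h2
    have hp0 : algebraMap R F π ≠ 0 := M.unif1.ne_zero
    have e : algebraMap R F π ^ (m + 1) * z = algebraMap R F π * (algebraMap R F π ^ m * z) := by
      ring
    obtain ⟨w', hw', hww⟩ := M.sat B hB 𝔪 h𝔪 hπ𝔪 _ hz
      (h1.imp id fun hz1 => ⟨_, O1.mul_mem _ _ (pow_mem M.pi_mem1 m) hz1, e⟩)
      (h2.imp id fun hz2 => ⟨_, O2.mul_mem _ _ (pow_mem M.pi_mem2 m) hz2, e⟩)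
    have : w' = algebraMap R F π ^ m * z := by
      apply mul_left_cancel₀ hp0
      rw [← hww, e]
    rw [this] at hw'
    exact ih z hw' h1 h2

/-- `π` does not divide a unit-like element: `¬ π ∣ x` implies `π ∣ x * y → π ∣ y`. -/
theorem dvd_of_dvd_mul (M : Frame (K := K) π B0 B1 O1 O2) {x y : R} (hx : ¬ π ∣ x)
    (hxy : π ∣ x * y) : π ∣ y := by
  have hx0 : x ≠ 0 := fun h => hx (h ▸ dvd_zero π)
  obtain ⟨k, v, hkv⟩ := M.dvrR x hx0
  rcases Nat.eq_zero_or_pos k with rfl | hk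
  · rw [pow_zero, one_mul] at hkv
    rw [hkv] at hxy
    exact (Units.dvd_mul_left (u := v)).mp hxy
  · exact absurd (hkv ▸ Dvd.dvd.mul_right (dvd_pow_self π hk.ne') _) hx

end Frame

/-- The hypotheses on the wild automorphism `σ`, the divisor `D`, the level-`(b+1)` divisor `E`
and the function `f` with `σ D - D - E = div f`. -/
structure WildData (π : R) (B0 B1 : Subalgebra R F) (O1 O2 : ValuationSubring F)
    (σ : SemilinearAut K F) (b : ℕ) (θ₀ : R) (D E : Divisor K F) (f : F) : Prop where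
  frame : Frame (K := K) π B0 B1 O1 O2
  pres : ∀ B : Subalgebra R F, B = B0 ∨ B = B1 → PreservesChart π B σ ∧ PreservesChart π B σ⁻¹
  hb : 1 ≤ b
  ram1 : ∀ x ∈ O1, ∃ c ∈ O1, σ • x - x = algebraMap R F π ^ (b + 1) * c
  ram2 : ∀ x ∈ O2, ∃ c ∈ O2, σ • x - x = algebraMap R F π ^ (b + 1) * c
  smul_pi : σ • (algebraMap R F π) =
    algebraMap R F π * (1 + algebraMap R F θ₀ * algebraMap R F π ^ b)
  loc : ∀ B : Subalgebra R F, B = B0 ∨ B = B1 → ∀ 𝔪 : Ideal B, 𝔪.IsMaximal →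
    algebraMap R B π ∈ 𝔪 → ∃ h, IsLocEq B 𝔪 D h
  levelE : ∀ B : Subalgebra R F, B = B0 ∨ B = B1 → ChartLevel π B O1 O2 (b + 1) E
  f_ne : f ≠ 0
  f1 : f ∈ O1 ∧ f⁻¹ ∈ O1
  f2 : f ∈ O2
  div_f : ∀ P : Place K F, (σ • D) P - D P - E P = P.ord f

namespace WildData

variable {π : R} {B0 B1 : Subalgebra R F} {O1 O2 : ValuationSubring F}
  {σ : SemilinearAut K F} {b : ℕ} {θ₀ : R} {D E : Divisor K F} {f : F}

/-- The branch part of the local form. -/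
def BranchCond (π : R) (θ₀ : R) (B : Subalgebra R F) (𝔪 : Ideal B) (Oj : ValuationSubring F)
    (h y' : F) : Prop :=
  OffBranch π B Oj 𝔪 ∨ (y' ∈ Oj ∧ ∀ a : ℤ, Oj.valuation h = Oj.valuation (algebraMap R F π) ^ a →
    ∃ c ∈ Oj, y' + (a : F) * algebraMap R F θ₀ = algebraMap R F π * c)

theorem branchCond_of (W : WildData π B0 B1 O1 O2 σ b θ₀ D E f) {B : Subalgebra R F}
    {𝔪 : Ideal B} {Oj : ValuationSubring F} (huj : IsUnifOf Oj (algebraMap R F π))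
    (hπj : algebraMap R F π ∈ Oj) (hθj : algebraMap R F θ₀ ∈ Oj)
    (hramj : ∀ x ∈ Oj, ∃ c ∈ Oj, σ • x - x = algebraMap R F π ^ (b + 1) * c)
    (hvalsj : ∀ z : F, z ≠ 0 → ∃ (a : ℤ) (u : F), u ∈ Oj ∧ u⁻¹ ∈ Oj ∧
      z = algebraMap R F π ^ a * u)
    {h e : F} (hh0 : h ≠ 0) (he : StrictOn π B Oj 𝔪 (b + 1) e) :
    (OffBranch π B Oj 𝔪 ∨ (σ • h / h)⁻¹ ∈ Oj) ∧
      BranchCond π θ₀ B 𝔪 Oj h ((e / (σ • h / h) - 1) / algebraMap R F π ^ b) := by
  rcases he with hoff | he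
  · exact ⟨Or.inl hoff, Or.inl hoff⟩
  obtain ⟨a₀, u, hu1, hu2, hhu⟩ := hvalsj h hh0
  have hp0 : algebraMap R F π ≠ 0 := huj.ne_zero
  have hu0 : u ≠ 0 := by
    rintro rfl
    exact hh0 (by rw [hhu, mul_zero])
  have hvalu : Oj.valuation u = 1 := by
    apply le_antisymm ((Oj.valuation_le_one_iff _).mpr hu1)
    have h1 : Oj.valuation u⁻¹ ≤ 1 := (Oj.valuation_le_one_iff _).mpr hu2
    rw [map_inv₀] at h1
    have hpos : 0 < Oj.valuation u := by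
      rw [pos_iff_ne_zero, Valuation.ne_zero_iff]; exact hu0
    exact (inv_le_one₀ hpos).mp h1
  have hv₀ : Oj.valuation h = Oj.valuation (algebraMap R F π) ^ a₀ := by
    rw [hhu, map_mul, map_zpow₀, hvalu, mul_one]
  obtain ⟨hkinv, hy', c, hc, hyc⟩ :=
    branch_analysis σ huj hπj W.hb hramj hθj W.smul_pi hh0 hv₀ he
  refine ⟨Or.inr hkinv, Or.inr ⟨hy', fun a ha => ?_⟩⟩
  have : a = a₀ := huj.zpow_injective (ha.symm.trans hv₀)
  subst this
  exact ⟨c, hc, hyc⟩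

/-- **Local form of `f` at a closed point**: `f (1 + ϖ ^ b y') ∈ B_𝔪` where, on every branch `j`
through the point, `y' ∈ O_j` and `y' ≡ - v_j(h) θ₀ mod ϖ O_j`. -/
theorem local_form (W : WildData π B0 B1 O1 O2 σ b θ₀ D E f) {B : Subalgebra R F}
    (hB : B = B0 ∨ B = B1) {𝔪 : Ideal B} (h𝔪 : 𝔪.IsMaximal) (hπ𝔪 : algebraMap R B π ∈ 𝔪)
    {h : F} (hh : IsLocEq B 𝔪 D h) :
    ∃ y' : F, InLocal B 𝔪 (f * (1 + algebraMap R F π ^ b * y')) ∧
      BranchCond π θ₀ B 𝔪 O1 h y' ∧ BranchCond π θ₀ B 𝔪 O2 h y' := by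
  have M := W.frame
  obtain ⟨e, heE, he1, he2⟩ := W.levelE B hB 𝔪 h𝔪 hπ𝔪
  have hp0 : algebraMap R F π ≠ 0 := M.unif1.ne_zero
  set k : F := σ • h / h with hk
  have hk0 : k ≠ 0 := div_ne_zero (by simpa using hh.1) hh.1
  obtain ⟨hk1, hb1⟩ := W.branchCond_of M.unif1 M.pi_mem1 (M.algebraMap_mem1 θ₀) W.ram1 M.vals1
    hh.1 he1
  obtain ⟨hk2, hb2⟩ := W.branchCond_of M.unif2 M.pi_mem2 (M.algebraMap_mem2 θ₀) W.ram2 M.vals2
    hh.1 he2
  refine ⟨(e / k - 1) / algebraMap R F π ^ b, ?_, hb1, hb2⟩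
  have hpb : algebraMap R F π ^ b ≠ 0 := pow_ne_zero b hp0
  have hu : f * (1 + algebraMap R F π ^ b * ((e / k - 1) / algebraMap R F π ^ b)) = f * e / k := by
    field_simp
    ring
  rw [hu]
  -- `f e / k` is a local equation of the zero divisor
  have hkL : IsLocEq B 𝔪 (σ • D - D) k :=
    (hh.smul (W.pres B hB).1 (W.pres B hB).2 h𝔪 hπ𝔪).div hh
  have hfL : IsLocEq B 𝔪 (σ • D - D - E) f :=
    IsLocEq.of_principal B 𝔪 W.f_ne fun P => by
      rw [Finsupp.sub_apply, Finsupp.sub_apply]; exact W.div_f P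
  have h0L : IsLocEq B 𝔪 (0 : Divisor K F) (f * e / k) := by
    have := (hfL.mul heE).div hkL
    have hz : σ • D - D - E + E - (σ • D - D) = 0 := by abel
    rwa [hz] at this
  refine M.hart B hB 𝔪 h𝔪 hπ𝔪 _ h0L.1 (fun P hP => by rw [h0L.2 P hP]; simp) ?_ ?_
  · rcases hk1 with hoff | hkinv
    · exact Or.inl hoff
    · rcases he1 with hoff | he1'
      · exact Or.inl hoff
      · refine Or.inr ?_
        rw [div_eq_mul_inv]
        exact O1.mul_mem _ _ (O1.mul_mem _ _ W.f1.1 (StrictOn.mem M.pi_mem1 he1')) hkinv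
  · rcases hk2 with hoff | hkinv
    · exact Or.inl hoff
    · rcases he2 with hoff | he2'
      · exact Or.inl hoff
      · refine Or.inr ?_
        rw [div_eq_mul_inv]
        exact O2.mul_mem _ _ (O2.mul_mem _ _ W.f2 (StrictOn.mem M.pi_mem2 he2')) hkinv

/-- **Step**: if `f ≡ a mod ϖ ^ m`, `f - a = ϖ ^ m g`, `b = m + n`, then at every closed point
`g + ϖ ^ n f y' ∈ B_𝔪` with `y'` as in `local_form`. -/
theorem exists_w (W : WildData π B0 B1 O1 O2 σ b θ₀ D E f) {B : Subalgebra R F}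
    (hB : B = B0 ∨ B = B1) {𝔪 : Ideal B} (h𝔪 : 𝔪.IsMaximal) (hπ𝔪 : algebraMap R B π ∈ 𝔪)
    {h : F} (hh : IsLocEq B 𝔪 D h) {m n : ℕ} (hmn : b = m + n) {a : R} {g : F}
    (hg1 : g ∈ O1) (hg2 : g ∈ O2)
    (hfa : f - algebraMap R F a = algebraMap R F π ^ m * g) :
    ∃ y' : F, InLocal B 𝔪 (g + algebraMap R F π ^ n * f * y') ∧
      BranchCond π θ₀ B 𝔪 O1 h y' ∧ BranchCond π θ₀ B 𝔪 O2 h y' := by
  have M := W.frame
  have := h𝔪.isPrime
  obtain ⟨y', hu, hb1, hb2⟩ := W.local_form hB h𝔪 hπ𝔪 hh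
  refine ⟨y', ?_, hb1, hb2⟩
  have hsub : InLocal B 𝔪 (f * (1 + algebraMap R F π ^ b * y') - algebraMap R F a) :=
    hu.sub (InLocal.of_mem h𝔪.ne_top (B.algebraMap_mem a))
  have e : f * (1 + algebraMap R F π ^ b * y') - algebraMap R F a =
      algebraMap R F π ^ m * (g + algebraMap R F π ^ n * f * y') := by
    rw [hmn, pow_add]
    linear_combination hfa
  rw [e] at hsub
  refine M.sat_pow hB h𝔪 hπ𝔪 m _ hsub ?_ ?_
  · rcases hb1 with hoff | ⟨hy1, -⟩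
    · exact Or.inl hoff
    · exact Or.inr (O1.add_mem _ _ hg1
        (O1.mul_mem _ _ (O1.mul_mem _ _ (pow_mem M.pi_mem1 n) W.f1.1) hy1))
  · rcases hb2 with hoff | ⟨hy2, -⟩
    · exact Or.inl hoff
    · exact Or.inr (O2.add_mem _ _ hg2
        (O2.mul_mem _ _ (O2.mul_mem _ _ (pow_mem M.pi_mem2 n) W.f2) hy2))

/-- Regularity of `g` at a closed point on the branch `j`, below the break (`n ≥ 1`). -/
theorem regular_below {B : Subalgebra R F} {𝔪 : Ideal B} {Oj : ValuationSubring F}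
    (hπj : algebraMap R F π ∈ Oj) (hfj : f ∈ Oj) (hon : ¬ OffBranch π B Oj 𝔪) {h y' g : F} {n : ℕ}
    (hb : BranchCond π θ₀ B 𝔪 Oj h y') :
    ∃ c ∈ Oj, g - (g + algebraMap R F π ^ (n + 1) * f * y') = algebraMap R F π * c := by
  rcases hb with hoff | ⟨hy, -⟩
  · exact absurd hoff hon
  · exact ⟨-(algebraMap R F π ^ n * f * y'),
      Oj.neg_mem _ (Oj.mul_mem _ _ (Oj.mul_mem _ _ (pow_mem hπj n) hfj) hy), by ring⟩

/-- Regularity of `g` at a closed point on the branch `j`, at the break (`n = 0`). -/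
theorem regular_at {B : Subalgebra R F} {𝔪 : Ideal B} {Oj : ValuationSubring F}
    (hπj : algebraMap R F π ∈ Oj) (hfj : f ∈ Oj) (hθj : algebraMap R F θ₀ ∈ Oj)
    (hon : ¬ OffBranch π B Oj 𝔪) {h y' g : F} {a : R} {k : ℕ} (hgj : g ∈ Oj)
    (hfa : f - algebraMap R F a = algebraMap R F π ^ (k + 1) * g)
    (hb : BranchCond π θ₀ B 𝔪 Oj h y') {aj : ℤ}
    (hv : Oj.valuation h = Oj.valuation (algebraMap R F π) ^ aj) :
    ∃ c ∈ Oj, g - (g + algebraMap R F π ^ 0 * f * y' +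
      (aj : F) * algebraMap R F θ₀ * algebraMap R F a) = algebraMap R F π * c := by
  rcases hb with hoff | ⟨-, hy⟩
  · exact absurd hoff hon
  · obtain ⟨c, hc, hyc⟩ := hy aj hv
    refine ⟨-(f * c) + (aj : F) * algebraMap R F θ₀ * (algebraMap R F π ^ k * g),
      Oj.add_mem _ _ (Oj.neg_mem _ (Oj.mul_mem _ _ hfj hc))
        (Oj.mul_mem _ _ (Oj.mul_mem _ _ (intCast_mem Oj aj) hθj)
          (Oj.mul_mem _ _ (pow_mem hπj k) hgj)), ?_⟩
    linear_combination (-f) * hyc + ((aj : F) * algebraMap R F θ₀) * hfa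

end WildData

/-- A node of the special fibre: a closed point of a chart through which both branches pass. -/
structure IsNode (π : R) (B0 B1 : Subalgebra R F) (O1 O2 : ValuationSubring F)
    (B : Subalgebra R F) (𝔪 : Ideal B) : Prop where
  chart : B = B0 ∨ B = B1
  max : 𝔪.IsMaximal
  pi_mem : algebraMap R B π ∈ 𝔪
  on1 : ¬ OffBranch π B O1 𝔪
  on2 : ¬ OffBranch π B O2 𝔪

/-- Every nonzero function has an integral valuation (valuation form of `Frame.vals`). -/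
theorem exists_val_eq {O : ValuationSubring F} {ϖ : F}
    (hvals : ∀ z : F, z ≠ 0 → ∃ (a : ℤ) (u : F), u ∈ O ∧ u⁻¹ ∈ O ∧ z = ϖ ^ a * u) {h : F}
    (hh0 : h ≠ 0) : ∃ a : ℤ, O.valuation h = O.valuation ϖ ^ a := by
  obtain ⟨a, u, hu1, hu2, hhu⟩ := hvals h hh0
  have hu0 : u ≠ 0 := by
    rintro rfl
    exact hh0 (by rw [hhu, mul_zero])
  have hvalu : O.valuation u = 1 := by
    apply le_antisymm ((O.valuation_le_one_iff _).mpr hu1)
    have h1 : O.valuation u⁻¹ ≤ 1 := (O.valuation_le_one_iff _).mpr hu2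
    rw [map_inv₀] at h1
    have hpos : 0 < O.valuation u := by
      rw [pos_iff_ne_zero, Valuation.ne_zero_iff]; exact hu0
    exact (inv_le_one₀ hpos).mp h1
  exact ⟨a, by rw [hhu, map_mul, map_zpow₀, hvalu, mul_one]⟩

namespace WildData

variable {π : R} {B0 B1 : Subalgebra R F} {O1 O2 : ValuationSubring F}
  {σ : SemilinearAut K F} {b : ℕ} {θ₀ : R} {D E : Divisor K F} {f : F}

/-- **The induction**: if the special fibre has a node, `f` is congruent to a constant `a_m ∈ R`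
modulo `ϖ ^ m (O₁ ⊓ O₂)` for every `m ≤ b`. -/
theorem exists_approx (W : WildData π B0 B1 O1 O2 σ b θ₀ D E f) {Bs : Subalgebra R F}
    {𝔪s : Ideal Bs} (hs : IsNode π B0 B1 O1 O2 Bs 𝔪s) :
    ∀ m : ℕ, m ≤ b → ∃ a : R, ∃ g : F, g ∈ O1 ∧ g ∈ O2 ∧
      f - algebraMap R F a = algebraMap R F π ^ m * g := by
  have M := W.frame
  have hp0 : algebraMap R F π ≠ 0 := M.unif1.ne_zero
  intro m
  induction m with
  | zero => intro _; exact ⟨0, f, W.f1.1, W.f2, by simp⟩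
  | succ m ih =>
    intro hm
    obtain ⟨a, g, hg1, hg2, hfa⟩ := ih (by omega)
    obtain ⟨n, hn⟩ : ∃ n, b = m + (n + 1) := ⟨b - m - 1, by omega⟩
    -- regularity on both branches
    obtain ⟨r1, c1, hc1, hgr1⟩ := M.const1 g hg1 (by
      intro B hB 𝔪 h𝔪 hπ𝔪 hon
      obtain ⟨h, hh⟩ := W.loc B hB 𝔪 h𝔪 hπ𝔪
      obtain ⟨y', hw, hb1, -⟩ := W.exists_w hB h𝔪 hπ𝔪 hh hn hg1 hg2 hfa
      exact ⟨_, hw, regular_below M.pi_mem1 W.f1.1 hon hb1⟩)
    obtain ⟨r2, c2, hc2, hgr2⟩ := M.const2 g hg2 (by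
      intro B hB 𝔪 h𝔪 hπ𝔪 hon
      obtain ⟨h, hh⟩ := W.loc B hB 𝔪 h𝔪 hπ𝔪
      obtain ⟨y', hw, -, hb2⟩ := W.exists_w hB h𝔪 hπ𝔪 hh hn hg1 hg2 hfa
      exact ⟨_, hw, regular_below M.pi_mem2 W.f2 hon hb2⟩)
    -- comparison at the node
    obtain ⟨h, hh⟩ := W.loc Bs hs.chart 𝔪s hs.max hs.pi_mem
    obtain ⟨y', hw, hb1, hb2⟩ := W.exists_w hs.chart hs.max hs.pi_mem hh hn hg1 hg2 hfa
    obtain ⟨d1, hd1, hgd1⟩ := regular_below (g := g) (n := n) M.pi_mem1 W.f1.1 hs.on1 hb1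
    obtain ⟨d2, hd2, hgd2⟩ := regular_below (g := g) (n := n) M.pi_mem2 W.f2 hs.on2 hb2
    have hdvd : π ∣ r1 - r2 :=
      node_compare hs.max M.dvrR (M.le1 Bs hs.chart) (M.le2 Bs hs.chart) hs.on1 hs.on2 hw
        ⟨c1 - d1, sub_mem hc1 hd1, by linear_combination hgr1 - hgd1⟩
        ⟨c2 - d2, sub_mem hc2 hd2, by linear_combination hgr2 - hgd2⟩
    obtain ⟨r', hr'⟩ := hdvd
    have hc1' : c1 = c2 - algebraMap R F r' := by
      apply mul_left_cancel₀ hp0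
      have : algebraMap R F r1 - algebraMap R F r2 = algebraMap R F π * algebraMap R F r' := by
        rw [← map_sub, hr', map_mul]
      linear_combination hgr2 - hgr1 - this
    refine ⟨a + π ^ m * r1, c1, hc1, ?_, ?_⟩
    · rw [hc1']
      exact sub_mem hc2 (M.algebraMap_mem2 r')
    · rw [map_add, map_mul, map_pow, pow_succ]
      linear_combination hfa + algebraMap R F π ^ m * hgr1

/-- **(T3), slope form.**  Under `WildData` (wild `σ` of break `b`, `[σ D - D] ` of depth `≥ b + 1`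
witnessed by `E`, `f`), with `θ₀` a unit modulo `π` and residue characteristic `p`: the slopes
`v₂(h) - v₁(h)` of the local equations of `D` at the nodes are all congruent modulo `p`. -/
theorem slopes_const (W : WildData π B0 B1 O1 O2 σ b θ₀ D E f) (hθ₀ : ¬ π ∣ θ₀) {p : ℕ}
    (hchar : ∀ n : ℤ, π ∣ (n : R) → (p : ℤ) ∣ n) :
    ∃ c : ℤ, ∀ (B : Subalgebra R F) (𝔪 : Ideal B), IsNode π B0 B1 O1 O2 B 𝔪 →
      ∀ (h : F) (a1 a2 : ℤ), IsLocEq B 𝔪 D h →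
        O1.valuation h = O1.valuation (algebraMap R F π) ^ a1 →
        O2.valuation h = O2.valuation (algebraMap R F π) ^ a2 → (p : ℤ) ∣ (a2 - a1) - c := by
  have M := W.frame
  have hp0 : algebraMap R F π ≠ 0 := M.unif1.ne_zero
  by_cases hex : ∃ (B : Subalgebra R F) (𝔪 : Ideal B), IsNode π B0 B1 O1 O2 B 𝔪
  swap
  · exact ⟨0, fun B 𝔪 hs => absurd ⟨B, 𝔪, hs⟩ hex⟩
  obtain ⟨Bs, 𝔪s, hs⟩ := hex
  obtain ⟨k, hk⟩ : ∃ k, b = k + 1 := ⟨b - 1, by have := W.hb; omega⟩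
  obtain ⟨a, g, hg1, hg2, hfa⟩ := W.exists_approx hs b le_rfl
  have hfa' : f - algebraMap R F a = algebraMap R F π ^ (k + 1) * g := by rw [← hk]; exact hfa
  -- `a` is a unit modulo `π`
  have ha : ¬ π ∣ a := by
    rintro ⟨a', rfl⟩
    apply M.unif1.nonunit
    have hf : f = algebraMap R F π * (algebraMap R F a' + algebraMap R F π ^ k * g) := by
      rw [map_mul] at hfa'
      linear_combination hfa'
    have hf0 := W.f_ne
    have : (algebraMap R F π)⁻¹ = f⁻¹ * (algebraMap R F a' + algebraMap R F π ^ k * g) := by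
      field_simp
      linear_combination hf
    rw [this]
    exact O1.mul_mem _ _ W.f1.2 (O1.add_mem _ _ (M.algebraMap_mem1 a')
      (O1.mul_mem _ _ (pow_mem M.pi_mem1 k) hg1))
  have hb0 : b = b + 0 := rfl
  -- the constant `t_j(h) = v_j(h) θ₀ a ∈ R`
  have hcast : ∀ aj : ℤ, algebraMap R F ((aj : R) * θ₀ * a) =
      (aj : F) * algebraMap R F θ₀ * algebraMap R F a := by
    intro aj; rw [map_mul, map_mul, map_intCast]
  -- regularity at the break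
  obtain ⟨r1, c1, hc1, hgr1⟩ := M.const1 g hg1 (by
    intro B hB 𝔪 h𝔪 hπ𝔪 hon
    have := h𝔪.isPrime
    obtain ⟨h, hh⟩ := W.loc B hB 𝔪 h𝔪 hπ𝔪
    obtain ⟨y', hw, hb1, -⟩ := W.exists_w hB h𝔪 hπ𝔪 hh hb0 hg1 hg2 hfa
    obtain ⟨aj, hv⟩ := exists_val_eq M.vals1 hh.1
    refine ⟨_, hw.add (InLocal.of_mem h𝔪.ne_top (B.algebraMap_mem ((aj : R) * θ₀ * a))), ?_⟩
    rw [hcast]
    exact regular_at M.pi_mem1 W.f1.1 (M.algebraMap_mem1 θ₀) hon hg1 hfa' hb1 hv)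
  obtain ⟨r2, c2, hc2, hgr2⟩ := M.const2 g hg2 (by
    intro B hB 𝔪 h𝔪 hπ𝔪 hon
    have := h𝔪.isPrime
    obtain ⟨h, hh⟩ := W.loc B hB 𝔪 h𝔪 hπ𝔪
    obtain ⟨y', hw, -, hb2⟩ := W.exists_w hB h𝔪 hπ𝔪 hh hb0 hg1 hg2 hfa
    obtain ⟨aj, hv⟩ := exists_val_eq M.vals2 hh.1
    refine ⟨_, hw.add (InLocal.of_mem h𝔪.ne_top (B.algebraMap_mem ((aj : R) * θ₀ * a))), ?_⟩
    rw [hcast]
    exact regular_at M.pi_mem2 W.f2 (M.algebraMap_mem2 θ₀) hon hg2 hfa' hb2 hv)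
  -- the key divisibility at every node and every local equation
  have key : ∀ (B : Subalgebra R F) (𝔪 : Ideal B), IsNode π B0 B1 O1 O2 B 𝔪 →
      ∀ (h : F) (a1 a2 : ℤ), IsLocEq B 𝔪 D h →
        O1.valuation h = O1.valuation (algebraMap R F π) ^ a1 →
        O2.valuation h = O2.valuation (algebraMap R F π) ^ a2 →
        π ∣ (r1 - r2) + ((a2 - a1 : ℤ) : R) * θ₀ * a := by
    intro B 𝔪 hn h a1 a2 hh hv1 hv2
    obtain ⟨y', hw, hb1, hb2⟩ := W.exists_w hn.chart hn.max hn.pi_mem hh hb0 hg1 hg2 hfa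
    obtain ⟨d1, hd1, hgd1⟩ := regular_at M.pi_mem1 W.f1.1 (M.algebraMap_mem1 θ₀) hn.on1 hg1 hfa'
      hb1 hv1
    obtain ⟨d2, hd2, hgd2⟩ := regular_at M.pi_mem2 W.f2 (M.algebraMap_mem2 θ₀) hn.on2 hg2 hfa'
      hb2 hv2
    have := node_compare (s₁ := r1 - (a1 : R) * θ₀ * a) (s₂ := r2 - (a2 : R) * θ₀ * a) hn.max
      M.dvrR (M.le1 B hn.chart) (M.le2 B hn.chart) hn.on1 hn.on2 hw
      ⟨c1 - d1, sub_mem hc1 hd1, by rw [map_sub, hcast]; linear_combination hgr1 - hgd1⟩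
      ⟨c2 - d2, sub_mem hc2 hd2, by rw [map_sub, hcast]; linear_combination hgr2 - hgd2⟩
    have e : r1 - (a1 : R) * θ₀ * a - (r2 - (a2 : R) * θ₀ * a) =
        (r1 - r2) + ((a2 - a1 : ℤ) : R) * θ₀ * a := by push_cast; ring
    rwa [e] at this
  -- base node
  obtain ⟨h0, hh0⟩ := W.loc Bs hs.chart 𝔪s hs.max hs.pi_mem
  obtain ⟨a10, hv10⟩ := exists_val_eq M.vals1 hh0.1
  obtain ⟨a20, hv20⟩ := exists_val_eq M.vals2 hh0.1
  refine ⟨a20 - a10, fun B 𝔪 hn h a1 a2 hh hv1 hv2 => ?_⟩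
  have k0 := key Bs 𝔪s hs h0 a10 a20 hh0 hv10 hv20
  have k1 := key B 𝔪 hn h a1 a2 hh hv1 hv2
  have hdiff : π ∣ θ₀ * (a * (((a2 - a1 - (a20 - a10) : ℤ)) : R)) := by
    have := dvd_sub k1 k0
    have e : (r1 - r2) + ((a2 - a1 : ℤ) : R) * θ₀ * a - ((r1 - r2) + ((a20 - a10 : ℤ) : R) * θ₀ * a)
        = θ₀ * (a * (((a2 - a1 - (a20 - a10) : ℤ)) : R)) := by push_cast; ring
    rwa [e] at this
  exact hchar _ (M.dvd_of_dvd_mul ha (M.dvd_of_dvd_mul hθ₀ hdiff))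

/-- If the special fibre has a node, `f` is not divisible by `ϖ` on the component `2`: a function
which is a unit on `C₁`, regular on `C₂` and of the local form cannot vanish identically on `C₂`. -/
theorem not_pi_dvd2 (W : WildData π B0 B1 O1 O2 σ b θ₀ D E f) {Bs : Subalgebra R F}
    {𝔪s : Ideal Bs} (hs : IsNode π B0 B1 O1 O2 Bs 𝔪s) :
    ¬ ∃ c ∈ O2, f = algebraMap R F π * c := by
  rintro ⟨c, hc, hfc⟩
  have M := W.frame
  have hp0 : algebraMap R F π ≠ 0 := M.unif1.ne_zero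
  obtain ⟨k, hk⟩ : ∃ k, b = k + 1 := ⟨b - 1, by have := W.hb; omega⟩
  -- `f` is regular at every closed point of the component `1`
  obtain ⟨r, c1, hc1, hfr⟩ := M.const1 f W.f1.1 (by
    intro B hB 𝔪 h𝔪 hπ𝔪 hon
    obtain ⟨h, hh⟩ := W.loc B hB 𝔪 h𝔪 hπ𝔪
    obtain ⟨y', hw, hb1, -⟩ := W.local_form hB h𝔪 hπ𝔪 hh
    refine ⟨_, hw, ?_⟩
    rcases hb1 with hoff | ⟨hy, -⟩
    · exact absurd hoff hon
    · exact ⟨-(algebraMap R F π ^ k * f * y'),
        O1.neg_mem _ (O1.mul_mem _ _ (O1.mul_mem _ _ (pow_mem M.pi_mem1 k) W.f1.1) hy),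
        by rw [hk]; ring⟩)
  -- comparison at the node
  obtain ⟨h, hh⟩ := W.loc Bs hs.chart 𝔪s hs.max hs.pi_mem
  obtain ⟨y', hw, hb1, hb2⟩ := W.local_form hs.chart hs.max hs.pi_mem hh
  have hy1 : y' ∈ O1 := by
    rcases hb1 with hoff | ⟨hy, -⟩
    · exact absurd hoff hs.on1
    · exact hy
  have hy2 : y' ∈ O2 := by
    rcases hb2 with hoff | ⟨hy, -⟩
    · exact absurd hoff hs.on2
    · exact hy
  have hdvd : π ∣ r - 0 :=
    node_compare hs.max M.dvrR (M.le1 Bs hs.chart) (M.le2 Bs hs.chart) hs.on1 hs.on2 hw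
      ⟨c1 + algebraMap R F π ^ k * f * y',
        O1.add_mem _ _ hc1 (O1.mul_mem _ _ (O1.mul_mem _ _ (pow_mem M.pi_mem1 k) W.f1.1) hy1),
        by rw [hk]; linear_combination hfr⟩
      ⟨c * (1 + algebraMap R F π ^ b * y'),
        O2.mul_mem _ _ hc (O2.add_mem _ _ O2.one_mem (O2.mul_mem _ _ (pow_mem M.pi_mem2 b) hy2)),
        by rw [map_zero, sub_zero]; linear_combination (1 + algebraMap R F π ^ b * y') * hfc⟩
  rw [sub_zero] at hdvd
  obtain ⟨r', rfl⟩ := hdvd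
  apply M.unif1.nonunit
  have hf : f = algebraMap R F π * (algebraMap R F r' + c1) := by
    rw [map_mul] at hfr
    linear_combination hfr
  have hf0 := W.f_ne
  have : (algebraMap R F π)⁻¹ = f⁻¹ * (algebraMap R F r' + c1) := by
    field_simp
    linear_combination hf
  rw [this]
  exact O1.mul_mem _ _ W.f1.2 (O1.add_mem _ _ (M.algebraMap_mem1 r') hc1)

end WildData

/-- **(T3), class form.**  `σ` a wild automorphism of the model of break `b ≥ 1` with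
`σ π = π (1 + θ₀ π ^ b)`, `θ₀` a unit; `D` a degree-zero divisor with local equations up to vertical
components at all closed points.  If `σ [D] - [D] ∈ Cart (b + 1)`, then the slopes of `D` at the
nodes are all congruent modulo the residue characteristic `p`. -/
theorem slopes_const_of_mem_cart {π : R} {B0 B1 : Subalgebra R F} {O1 O2 : ValuationSubring F}
    (M : Frame (K := K) π B0 B1 O1 O2)
    {hπ1 : algebraMap R F π ∈ O1} {hπ2 : algebraMap R F π ∈ O2} {σ : SemilinearAut K F}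
    (pres : ∀ B : Subalgebra R F, B = B0 ∨ B = B1 →
      PreservesChart π B σ ∧ PreservesChart π B σ⁻¹)
    {b : ℕ} (hb : 1 ≤ b)
    (ram1 : ∀ x ∈ O1, ∃ c ∈ O1, σ • x - x = algebraMap R F π ^ (b + 1) * c)
    (ram2 : ∀ x ∈ O2, ∃ c ∈ O2, σ • x - x = algebraMap R F π ^ (b + 1) * c)
    {θ₀ : R} (smul_pi : σ • (algebraMap R F π) =
      algebraMap R F π * (1 + algebraMap R F θ₀ * algebraMap R F π ^ b))
    (hθ₀ : ¬ π ∣ θ₀) {p : ℕ} (hchar : ∀ n : ℤ, π ∣ (n : R) → (p : ℤ) ∣ n)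
    (hvert : ∀ P : Place K F, P.ord (algebraMap R F π) = 0)
    (D : Divisor.degZero (K := K) (F := F))
    (loc : ∀ B : Subalgebra R F, B = B0 ∨ B = B1 → ∀ 𝔪 : Ideal B, 𝔪.IsMaximal →
      algebraMap R B π ∈ 𝔪 → ∃ h, IsLocEq B 𝔪 (D : Divisor K F) h)
    (hmem : σ • Pic0.mk D - Pic0.mk D ∈ Cart π B0 B1 O1 O2 hπ1 hπ2 (b + 1)) :
    ∃ c : ℤ, ∀ (B : Subalgebra R F) (𝔪 : Ideal B), IsNode π B0 B1 O1 O2 B 𝔪 →
      ∀ (h : F) (a1 a2 : ℤ), IsLocEq B 𝔪 (D : Divisor K F) h →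
        O1.valuation h = O1.valuation (algebraMap R F π) ^ a1 →
        O2.valuation h = O2.valuation (algebraMap R F π) ^ a2 → (p : ℤ) ∣ (a2 - a1) - c := by
  by_cases hex : ∃ (B : Subalgebra R F) (𝔪 : Ideal B), IsNode π B0 B1 O1 O2 B 𝔪
  swap
  · exact ⟨0, fun B 𝔪 hs => absurd ⟨B, 𝔪, hs⟩ hex⟩
  obtain ⟨Bs, 𝔪s, hs⟩ := hex
  have hp0 : algebraMap R F π ≠ 0 := M.unif1.ne_zero
  obtain ⟨E, hE, hE0, hE1⟩ := hmem
  have hlevE : ∀ B : Subalgebra R F, B = B0 ∨ B = B1 →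
      ChartLevel π B O1 O2 (b + 1) (E : Divisor K F) := by
    rintro B (rfl | rfl)
    · exact hE0
    · exact hE1
  -- `σ D - D - E` is principal
  have hprin : Pic0.mk (SemilinearAut.degZeroSMulHom σ D - D - E) = 0 := by
    have : Pic0.mk (SemilinearAut.degZeroSMulHom σ D - D - E) =
        σ • Pic0.mk D - Pic0.mk D - Pic0.mk E := by
      rw [SemilinearAut.pic0_smul_mk]; rfl
    rw [this, hE, sub_self]
  obtain ⟨f0, hf0, hdiv⟩ : Divisor.IsPrincipal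
      (σ • (D : Divisor K F) - (D : Divisor K F) - (E : Divisor K F)) := by
    have := (QuotientAddGroup.eq_zero_iff _).mp hprin
    exact AddSubgroup.mem_addSubgroupOf.mp this
  -- normalise on the component `1`
  obtain ⟨m1, f, hf1, hf1', hff⟩ := M.vals1 f0 hf0
  have hf_ne : f ≠ 0 := by
    rintro rfl
    exact hf0 (by rw [hff, mul_zero])
  have hord : ∀ P : Place K F, P.ord f0 = P.ord f := by
    intro P
    rw [hff, P.ord_mul (zpow_ne_zero m1 hp0) hf_ne, P.ord_zpow, hvert, mul_zero, zero_add]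
  have hdivf : ∀ P : Place K F,
      (σ • (D : Divisor K F)) P - (D : Divisor K F) P - (E : Divisor K F) P = P.ord f := by
    intro P
    rw [← hord, ← hdiv P, Finsupp.sub_apply, Finsupp.sub_apply]
  obtain ⟨m2, u2, hu2, hu2', hfu2⟩ := M.vals2 f hf_ne
  rcases le_or_gt 0 m2 with hm2 | hm2
  · -- `f` is regular on `C₂`
    have hf2 : f ∈ O2 := by
      obtain ⟨n, rfl⟩ := Int.eq_ofNat_of_zero_le hm2
      rw [hfu2, zpow_natCast]
      exact O2.mul_mem _ _ (pow_mem M.pi_mem2 n) hu2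
    have W : WildData π B0 B1 O1 O2 σ b θ₀ (D : Divisor K F) (E : Divisor K F) f :=
      { frame := M, pres := pres, hb := hb, ram1 := ram1, ram2 := ram2, smul_pi := smul_pi
        loc := loc, levelE := hlevE, f_ne := hf_ne, f1 := ⟨hf1, hf1'⟩, f2 := hf2, div_f := hdivf }
    exact W.slopes_const hθ₀ hchar
  · -- `f⁻¹` vanishes on `C₂`: impossible
    exfalso
    have hu20 : u2 ≠ 0 := by
      rintro rfl
      exact hf_ne (by rw [hfu2, mul_zero])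
    obtain ⟨n, hn⟩ : ∃ n : ℕ, -m2 = (n : ℤ) + 1 := ⟨(-m2 - 1).toNat, by omega⟩
    have hfinv : f⁻¹ = algebraMap R F π * (algebraMap R F π ^ n * u2⁻¹) := by
      rw [hfu2, mul_inv, ← zpow_neg, hn, zpow_add_one₀ hp0, zpow_natCast]
      ring
    have W : WildData π B0 B1 O1 O2 σ b θ₀ (-(D : Divisor K F)) (-(E : Divisor K F)) f⁻¹ :=
      { frame := M, pres := pres, hb := hb, ram1 := ram1, ram2 := ram2, smul_pi := smul_pi
        loc := fun B hB 𝔪 h𝔪 hπ𝔪 => by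
          obtain ⟨h, hh⟩ := loc B hB 𝔪 h𝔪 hπ𝔪
          exact ⟨h⁻¹, hh.inv⟩
        levelE := fun B hB => (hlevE B hB).neg M.pi_mem1 M.pi_mem2
        f_ne := inv_ne_zero hf_ne
        f1 := ⟨hf1', by rwa [inv_inv]⟩
        f2 := by
          rw [hfinv]
          exact O2.mul_mem _ _ M.pi_mem2 (O2.mul_mem _ _ (pow_mem M.pi_mem2 n) hu2')
        div_f := fun P => by
          rw [smul_neg, Finsupp.neg_apply, Finsupp.neg_apply, Finsupp.neg_apply, P.ord_inv,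
            ← hdivf P]
          ring }
    exact W.not_pi_dvd2 hs ⟨_, O2.mul_mem _ _ (pow_mem M.pi_mem2 n) hu2', hfinv⟩

end Global

end Fermat.Agent.M1.Mon.WildPL43
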