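/-
Program M1 (S44), chapter MON (helper13): **higher ramification depth of an automorphism relative to
a discrete valuation subring, and the local computations of the wild Picard–Lefschetz formula (D3)
and of the Galois action on the graded pieces (J6).**

Vocabulary: the elementary one of `ES/N34/GalGauss21` (`O : ValuationSubring F`, a uniformiser
`p : F`, an automorphism `g : F ≃+* F`).  Mathlib only.

* `IsRamAt O p n g` : `g O = O` and `g ≡ id mod p ^ n O` on `O` (for `n = 1` these are the first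
  three fields of `GalGauss21.IsInertial`); `mono`, `symm`, `trans`, `refl`.
* `IsRamAt.map_p` : `g p = p * (1 + θ * p ^ b)` with `θ ∈ O` when the depth is `b + 1`.
* `IsRamAt.unit_ratio` : `g u / u ≡ 1 mod p ^ n O` for units `u` of `O`.
* `one_add_zpow` : `(1 + θ p ^ b) ^ a ≡ 1 + a θ p ^ b mod p ^ (b + 1) O` for `a : ℤ`, `b ≥ 1`.
* `IsRamAt.ratio_zpow` : **(D3), one valuation**: if `f = p ^ a * u` (`u` a unit of `O`) then
  `g f / f ≡ 1 + a θ p ^ b mod p ^ (b + 1) O`.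
* `wildPL` : **(D3) at a node** (two valuations `O1`, `O2`): a local equation `h` with
  `v₁(h) = 0`, `v₂(h) = -λ` has `g h / h ≡ 1 mod p ^ (b+1) O1` and
  `g h / h ≡ 1 - λ θ p ^ b mod p ^ (b+1) O2`.
* `IsRamAt.leading` : **(J6)**: `g (1 + p ^ m a) = 1 + p ^ m (ε ^ m a + p c)` where `g p = p ε`:
  the action on the `m`-th graded piece is multiplication by `ε ^ m`.
* `IsRamAt.sub_self_of_level` : `g h - h ∈ p ^ (m + b) O` for `h ≡ 1 mod p ^ m O` and `g` of depth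
  `b + 1`: a wild element acts trivially on every graded piece.
-/
import Mathlib

set_option autoImplicit false

namespace Fermat.Agent.M1.Mon.RamDepth13

variable {F : Type*} [Field F]

/-- `g` preserves `O` (in both directions) and is the identity modulo `p ^ n O` on `O`. -/
structure IsRamAt (O : ValuationSubring F) (p : F) (n : ℕ) (g : F ≃+* F) : Prop where
  map_mem : ∀ x ∈ O, g x ∈ O
  symm_mem : ∀ x ∈ O, g.symm x ∈ O
  sub_mem : ∀ x ∈ O, ∃ c ∈ O, g x - x = p ^ n * c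

variable {O : ValuationSubring F} {p : F} {n : ℕ} {g : F ≃+* F}

theorem IsRamAt.refl (O : ValuationSubring F) (p : F) (n : ℕ) : IsRamAt O p n (RingEquiv.refl F) :=
  ⟨fun _ hx => hx, fun _ hx => hx, fun x _ => ⟨0, O.zero_mem, by simp⟩⟩

theorem IsRamAt.mono (h : IsRamAt O p n g) (hp : p ∈ O) {m : ℕ} (hmn : m ≤ n) :
    IsRamAt O p m g := by
  refine ⟨h.map_mem, h.symm_mem, fun x hx => ?_⟩
  obtain ⟨c, hc, e⟩ := h.sub_mem x hx
  refine ⟨p ^ (n - m) * c, O.mul_mem _ _ (pow_mem hp _) hc, ?_⟩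
  rw [e, ← mul_assoc, ← pow_add, Nat.add_sub_cancel' hmn]

theorem IsRamAt.symm (h : IsRamAt O p n g) : IsRamAt O p n g.symm := by
  refine ⟨h.symm_mem, fun x hx => by simpa using h.map_mem x hx, fun x hx => ?_⟩
  obtain ⟨c, hc, e⟩ := h.sub_mem (g.symm x) (h.symm_mem x hx)
  rw [g.apply_symm_apply] at e
  exact ⟨-c, O.neg_mem _ hc, by linear_combination -e⟩

theorem IsRamAt.trans {g' : F ≃+* F} (h : IsRamAt O p n g) (h' : IsRamAt O p n g') :
    IsRamAt O p n (g.trans g') := by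
  refine ⟨fun x hx => h'.map_mem _ (h.map_mem x hx), fun x hx => ?_, fun x hx => ?_⟩
  · exact h.symm_mem _ (h'.symm_mem x hx)
  · obtain ⟨c, hc, e⟩ := h.sub_mem x hx
    obtain ⟨c', hc', e'⟩ := h'.sub_mem (g x) (h.map_mem x hx)
    refine ⟨c' + c, O.add_mem _ _ hc' hc, ?_⟩
    rw [RingEquiv.trans_apply]
    linear_combination e + e'

theorem IsRamAt.map_inv_mem (h : IsRamAt O p n g) {x : F} (hx : x⁻¹ ∈ O) : (g x)⁻¹ ∈ O := by
  rw [← map_inv₀]
  exact h.map_mem _ hx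

/-- `g p = p (1 + θ p ^ b)` with `θ ∈ O`. -/
theorem IsRamAt.map_p {b : ℕ} (h : IsRamAt O p (b + 1) g) (hp : p ∈ O) :
    ∃ θ ∈ O, g p = p * (1 + θ * p ^ b) := by
  obtain ⟨c, hc, e⟩ := h.sub_mem p hp
  exact ⟨c, hc, by rw [pow_succ] at e; linear_combination e⟩

/-- `g u / u ≡ 1 mod p ^ n O` for a unit `u` of `O`. -/
theorem IsRamAt.unit_ratio (h : IsRamAt O p n g) {u : F} (hu : u ∈ O) (hui : u⁻¹ ∈ O)
    (hu0 : u ≠ 0) : ∃ c ∈ O, g u / u - 1 = p ^ n * c := by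
  obtain ⟨c, hc, e⟩ := h.sub_mem u hu
  refine ⟨c * u⁻¹, O.mul_mem _ _ hc hui, ?_⟩
  have : g u / u - 1 = (g u - u) * u⁻¹ := by field_simp
  rw [this, e]
  ring

/-! ### Units of the form `1 + θ p ^ b` -/

/-- `1 + p y` is a unit of `O` when `p` is not. -/
theorem one_add_mul_inv_mem (hp : p ∈ O) (hpi : p⁻¹ ∉ O) {y : F} (hy : y ∈ O) :
    (1 + p * y)⁻¹ ∈ O := by
  by_contra hcon
  -- `1 + p y` is a non-unit, `p y` is a non-unit, so `1` is a non-unit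
  have h1 : (⟨1 + p * y, O.add_mem _ _ O.one_mem (O.mul_mem _ _ hp hy)⟩ : O) ∈
      IsLocalRing.maximalIdeal O := by
    rw [IsLocalRing.mem_maximalIdeal, mem_nonunits_iff]
    intro hunit
    obtain ⟨v, hv⟩ := hunit.exists_right_inv
    apply hcon
    have hv' : (1 + p * y) * (v : F) = 1 := congrArg Subtype.val hv
    rw [inv_eq_of_mul_eq_one_right hv']
    exact v.2
  have h2 : (⟨p * y, O.mul_mem _ _ hp hy⟩ : O) ∈ IsLocalRing.maximalIdeal O := by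
    rw [IsLocalRing.mem_maximalIdeal, mem_nonunits_iff]
    intro hunit
    obtain ⟨v, hv⟩ := hunit.exists_right_inv
    apply hpi
    have hv' : p * y * (v : F) = 1 := congrArg Subtype.val hv
    rw [mul_assoc] at hv'
    rw [inv_eq_of_mul_eq_one_right hv']
    exact O.mul_mem _ _ hy v.2
  have h3 := (IsLocalRing.maximalIdeal O).sub_mem h1 h2
  have h4 : (⟨1 + p * y, O.add_mem _ _ O.one_mem (O.mul_mem _ _ hp hy)⟩ : O) -
      ⟨p * y, O.mul_mem _ _ hp hy⟩ = 1 := by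
    apply Subtype.ext
    show 1 + p * y - p * y = 1
    ring
  rw [h4] at h3
  exact (IsLocalRing.maximalIdeal.isMaximal O).ne_top ((Ideal.eq_top_iff_one _).mpr h3)

/-- natural exponents: `(1 + θ p ^ b) ^ k ≡ 1 + k θ p ^ b mod p ^ (b + 1) O`. -/
theorem one_add_pow (hp : p ∈ O) {b : ℕ} (hb : 1 ≤ b) {θ : F} (hθ : θ ∈ O) (k : ℕ) :
    ∃ c ∈ O, (1 + θ * p ^ b) ^ k - (1 + (k : F) * θ * p ^ b) = p ^ (b + 1) * c := by
  induction k with
  | zero => exact ⟨0, O.zero_mem, by simp⟩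
  | succ k ih =>
    obtain ⟨c, hc, e⟩ := ih
    obtain ⟨b', rfl⟩ : ∃ b', b = b' + 1 := ⟨b - 1, (Nat.sub_add_cancel hb).symm⟩
    have hk : (k : F) ∈ O := by
      have : (k : F) = ((k : O) : F) := by simp
      rw [this]; exact (k : O).2
    refine ⟨c * (1 + θ * p ^ (b' + 1)) + (k : F) * θ * θ * p ^ b',
      O.add_mem _ _ (O.mul_mem _ _ hc
        (O.add_mem _ _ O.one_mem (O.mul_mem _ _ hθ (pow_mem hp _))))
        (O.mul_mem _ _ (O.mul_mem _ _ (O.mul_mem _ _ hk hθ) hθ) (pow_mem hp _)), ?_⟩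
    have e' : (1 + θ * p ^ (b' + 1)) ^ k =
        1 + (k : F) * θ * p ^ (b' + 1) + p ^ (b' + 1 + 1) * c := by linear_combination e
    rw [pow_succ, e']
    push_cast
    ring

/-- integer exponents: `(1 + θ p ^ b) ^ a ≡ 1 + a θ p ^ b mod p ^ (b + 1) O`. -/
theorem one_add_zpow (hp : p ∈ O) (hpi : p⁻¹ ∉ O) {b : ℕ} (hb : 1 ≤ b) {θ : F} (hθ : θ ∈ O)
    (a : ℤ) :
    ∃ c ∈ O, (1 + θ * p ^ b) ^ a - (1 + (a : F) * θ * p ^ b) = p ^ (b + 1) * c := by
  rcases Int.eq_nat_or_neg a with ⟨k, rfl | rfl⟩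
  · obtain ⟨c, hc, e⟩ := one_add_pow hp hb hθ k
    exact ⟨c, hc, by rw [zpow_natCast]; push_cast; exact e⟩
  · obtain ⟨c, hc, e⟩ := one_add_pow hp hb hθ k
    obtain ⟨b', rfl⟩ : ∃ b', b = b' + 1 := ⟨b - 1, (Nat.sub_add_cancel hb).symm⟩
    set ε := 1 + θ * p ^ (b' + 1) with hε
    have hεeq : ε = 1 + p * (θ * p ^ b') := by rw [hε, pow_succ]; ring
    have hεi : ε⁻¹ ∈ O := by
      rw [hεeq]
      exact one_add_mul_inv_mem hp hpi (O.mul_mem _ _ hθ (pow_mem hp _))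
    have hε0 : ε ≠ 0 := by
      intro h0
      apply hpi
      -- `ε = 0` gives `p * (-(θ p^b')) = 1`
      have : p * (-(θ * p ^ b')) = 1 := by rw [hεeq] at h0; linear_combination -h0
      rw [inv_eq_of_mul_eq_one_right this]
      exact O.neg_mem _ (O.mul_mem _ _ hθ (pow_mem hp _))
    have hk : (k : F) ∈ O := by
      have : (k : F) = ((k : O) : F) := by simp
      rw [this]; exact (k : O).2
    have hεki : (ε ^ k)⁻¹ ∈ O := by rw [← inv_pow]; exact pow_mem hεi k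
    have hεk0 : ε ^ k ≠ 0 := pow_ne_zero k hε0
    -- `ε^(-k) - (1 - kθp^b) = (1 - (1 - kθp^b) ε^k) / ε^k`
    refine ⟨(-c + (k : F) * θ * ((k : F) * θ * p ^ b' + p ^ (b' + 1) * c)) * (ε ^ k)⁻¹,
      O.mul_mem _ _ (O.add_mem _ _ (O.neg_mem _ hc)
        (O.mul_mem _ _ (O.mul_mem _ _ hk hθ)
          (O.add_mem _ _ (O.mul_mem _ _ (O.mul_mem _ _ hk hθ) (pow_mem hp _))
            (O.mul_mem _ _ (pow_mem hp _) hc)))) hεki, ?_⟩
    have e' : ε ^ k = 1 + (k : F) * θ * p ^ (b' + 1) + p ^ (b' + 1 + 1) * c := by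
      linear_combination e
    rw [zpow_neg, zpow_natCast]
    have key : (ε ^ k)⁻¹ - (1 + ((-(k : ℤ) : ℤ) : F) * θ * p ^ (b' + 1)) =
        (1 - (1 + ((-(k : ℤ) : ℤ) : F) * θ * p ^ (b' + 1)) * ε ^ k) * (ε ^ k)⁻¹ := by
      field_simp
    rw [key]
    have hnum : 1 - (1 + ((-(k : ℤ) : ℤ) : F) * θ * p ^ (b' + 1)) * ε ^ k =
        p ^ (b' + 1 + 1) *
          (-c + (k : F) * θ * ((k : F) * θ * p ^ b' + p ^ (b' + 1) * c)) := by
      rw [e']
      push_cast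
      ring
    rw [hnum]
    ring

/-! ### (D3): the local computation -/

/-- **(D3), one valuation.**  For `g` of depth `b + 1` with `g p = p (1 + θ p ^ b)` and
`f = p ^ a * u`, `u` a unit of `O`: `g f / f ≡ 1 + a θ p ^ b mod p ^ (b + 1) O`. -/
theorem IsRamAt.ratio_zpow {b : ℕ} (h : IsRamAt O p (b + 1) g) (hb : 1 ≤ b) (hp : p ∈ O)
    (hpi : p⁻¹ ∉ O) {θ : F} (hθ : θ ∈ O) (hgp : g p = p * (1 + θ * p ^ b)) {u : F} (hu : u ∈ O)
    (hui : u⁻¹ ∈ O) (hu0 : u ≠ 0) (a : ℤ) :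
    ∃ c ∈ O, g (p ^ a * u) / (p ^ a * u) - (1 + (a : F) * θ * p ^ b) = p ^ (b + 1) * c := by
  have hp0 : p ≠ 0 := by
    rintro rfl
    exact hpi (by simp [O.zero_mem])
  obtain ⟨c1, hc1, e1⟩ := h.unit_ratio hu hui hu0
  obtain ⟨c2, hc2, e2⟩ := one_add_zpow hp hpi hb hθ a
  have hpa : p ^ a ≠ 0 := zpow_ne_zero a hp0
  have hratio : g (p ^ a * u) / (p ^ a * u) = (1 + θ * p ^ b) ^ a * (g u / u) := by
    rw [map_mul, map_zpow₀, hgp, mul_zpow]
    field_simp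
  have hθb : (a : F) ∈ O := by
    have : (a : F) = ((a : O) : F) := by simp
    rw [this]; exact (a : O).2
  refine ⟨c2 * (1 + p ^ (b + 1) * c1) + (1 + (a : F) * θ * p ^ b) * c1,
    O.add_mem _ _ (O.mul_mem _ _ hc2
      (O.add_mem _ _ O.one_mem (O.mul_mem _ _ (pow_mem hp _) hc1)))
      (O.mul_mem _ _ (O.add_mem _ _ O.one_mem
        (O.mul_mem _ _ (O.mul_mem _ _ hθb hθ) (pow_mem hp _))) hc1), ?_⟩
  have e1' : g u / u = 1 + p ^ (b + 1) * c1 := by linear_combination e1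
  have e2' : (1 + θ * p ^ b) ^ a = 1 + (a : F) * θ * p ^ b + p ^ (b + 1) * c2 := by
    linear_combination e2
  rw [hratio, e1', e2']
  ring

/-- **(D3) at a node** (wild Picard–Lefschetz in local-equation form).  `O1`, `O2` the two Gauss
valuation rings, `g` of depth `b + 1 ≥ 2` for both, `g p = p (1 + θ p ^ b)`.  A local equation `h`
with `v₁(h) = 0` (`h = u₁` a unit of `O1`) and `v₂(h) = -λ` (`h = p ^ (-λ) u₂`, `u₂` a unit of
`O2`) satisfies `g h / h ≡ 1 mod p ^ (b+1) O1` and `g h / h ≡ 1 - λ θ p ^ b mod p ^ (b+1) O2`. -/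
theorem wildPL {O1 O2 : ValuationSubring F} {b : ℕ} (h1 : IsRamAt O1 p (b + 1) g)
    (h2 : IsRamAt O2 p (b + 1) g) (hb : 1 ≤ b) (hp2 : p ∈ O2) (hpi2 : p⁻¹ ∉ O2) {θ : F}
    (hθ2 : θ ∈ O2) (hgp : g p = p * (1 + θ * p ^ b)) {h : F} (hh1 : h ∈ O1) (hh1i : h⁻¹ ∈ O1)
    {lam : ℤ} {u2 : F} (hu2 : u2 ∈ O2) (hu2i : u2⁻¹ ∈ O2) (hh2 : h = p ^ (-lam) * u2)
    (hh0 : h ≠ 0) :
    (∃ c ∈ O1, g h / h - 1 = p ^ (b + 1) * c) ∧
      ∃ c ∈ O2, g h / h - (1 - (lam : F) * θ * p ^ b) = p ^ (b + 1) * c := by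
  refine ⟨h1.unit_ratio hh1 hh1i hh0, ?_⟩
  have hu20 : u2 ≠ 0 := by
    rintro rfl
    rw [mul_zero] at hh2
    exact hh0 hh2
  obtain ⟨c, hc, e⟩ := h2.ratio_zpow hb hp2 hpi2 hθ2 hgp hu2 hu2i hu20 (-lam)
  refine ⟨c, hc, ?_⟩
  rw [hh2, ← e]
  push_cast
  ring

/-! ### (J6): the action on the graded pieces -/

/-- **(J6).**  `g p = p ε`, `g ≡ id mod p O`.  If `h = 1 + p ^ m a` with `a ∈ O` then
`g h = 1 + p ^ m (ε ^ m a + p c)`: on the `m`-th graded piece `g` multiplies the leading term by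
`ε ^ m` (mod `p`). -/
theorem IsRamAt.leading (hg : IsRamAt O p 1 g) {ε : F} (hε : ε ∈ O)
    (hgp : g p = p * ε) {h a : F} {m : ℕ} (ha : a ∈ O) (hh : h - 1 = p ^ m * a) :
    ∃ c ∈ O, g h - 1 = p ^ m * (ε ^ m * a + p * c) := by
  obtain ⟨c, hc, e⟩ := hg.sub_mem a ha
  refine ⟨ε ^ m * c, O.mul_mem _ _ (pow_mem hε _) hc, ?_⟩
  have e1 : g h - 1 = g (h - 1) := by rw [map_sub, map_one]
  have e2 : g a = a + p * c := by rw [pow_one] at e; linear_combination e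
  rw [e1, hh, map_mul, map_pow, hgp, e2, mul_pow]
  ring

/-- `g` of depth `b + 1` moves `h ≡ 1 mod p ^ m O` by an element of `p ^ (m + b) O`: the level-`m`
subgroup is mapped into level `m + b` by `g - 1`; in particular a wild element (`b ≥ 1`) acts
trivially on every graded piece. -/
theorem IsRamAt.sub_self_of_level {b : ℕ} (hg : IsRamAt O p (b + 1) g) (hp : p ∈ O) {h a : F}
    {m : ℕ} (ha : a ∈ O) (hh : h - 1 = p ^ m * a) :
    ∃ c ∈ O, g h - h = p ^ (m + b) * c := by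
  obtain ⟨θ, hθ, hgp⟩ := hg.map_p hp
  obtain ⟨c1, hc1, e1⟩ := hg.sub_mem a ha
  -- `(1 + θ p^b)^m = 1 + p^b d`
  have hpow : ∀ k : ℕ, ∃ d ∈ O, (1 + θ * p ^ b) ^ k = 1 + p ^ b * d := by
    intro k
    induction k with
    | zero => exact ⟨0, O.zero_mem, by simp⟩
    | succ k ih =>
      obtain ⟨d, hd, e⟩ := ih
      refine ⟨d * (1 + θ * p ^ b) + θ,
        O.add_mem _ _ (O.mul_mem _ _ hd
          (O.add_mem _ _ O.one_mem (O.mul_mem _ _ hθ (pow_mem hp _)))) hθ, ?_⟩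
      rw [pow_succ, e]
      ring
  obtain ⟨d, hd, ed⟩ := hpow m
  refine ⟨d * (a + p ^ (b + 1) * c1) + p * c1,
    O.add_mem _ _ (O.mul_mem _ _ hd (O.add_mem _ _ ha (O.mul_mem _ _ (pow_mem hp _) hc1)))
      (O.mul_mem _ _ hp hc1), ?_⟩
  have e0 : g h - h = g (h - 1) - (h - 1) := by rw [map_sub, map_one]; ring
  have e2 : g a = a + p ^ (b + 1) * c1 := by linear_combination e1
  rw [e0, hh, map_mul, map_pow, hgp, e2, mul_pow, ed]
  ring

end Fermat.Agent.M1.Mon.RamDepth13
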