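/-
Program M1 (S44), chapter MON (helper13): **(T6) and (T1') for the model of record.**

helper43's `Car/Defs43` proves (T6) `smul_sub_mem_cart` and (T1') `smul_sub_nsmul_mem_cart` for an
abstract semilinear automorphism `σ` satisfying `PreservesChart` (for `σ` and `σ⁻¹`, both charts)
and the congruences `σ ≡ id mod π ^ (b + 1)` on the two Gauss valuation rings.  Here these
hypotheses are supplied:

* abstractly, from helper21's `GalChart21.SigmaData` relative to a `NodalTwoChartModel`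
  (`preservesChart0`, `preservesChart1`, `smul_sub_mem_cart_of_sigmaData`,
  `smul_sub_nsmul_mem_cart_of_sigmaData`);
* concretely, for `σ = galK K (M' * q) τ`, `τ ∈ I_A`, on the model of record in the names of
  `ModelDefs9` (`t6_model`: depth `b + 1` in the sense of `GalDepth13.RamDepth` shifts the
  filtration `Cart` by `b`; `t1'_model`: `τ` acts on `Cart n / Cart (n + 1)` through `ε ^ n`,
  `τ π = π ε`).
-/
import Mathlib
import Fermat.Agent.M1.Car.Defs43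
import Fermat.Agent.M1.Mod.GalDepth13

set_option autoImplicit false
set_option linter.unusedSectionVars false

noncomputable section

open HahnSeries AlgebraicCurve ModularCurve

namespace Fermat.Agent.M1.Mon.GalInst13

open Fermat.Agent.ES.N34.NodalCore13 Fermat.Agent.ES.N34.GalGauss21
  Fermat.Agent.ES.N34.GalChart21 Fermat.Agent.M1.Car.Defs43 Fermat.Agent.M1.Mon.RamDepth13
  Fermat.Agent.M1.Mod.GalDepth13

/-! ### Abstract form: from `SigmaData` -/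

section Abstract

variable {R K F : Type*} [CommRing R] [Field K] [Field F] [Algebra K F] [Algebra R F]
variable {π : R} {t : F} {B0 B1 : Subalgebra R F} {O1 O2 : ValuationSubring F}
variable (M : NodalTwoChartModel R F π t B0 B1 O1 O2)
include M

/-- an inertia automorphism preserves the chart `B0` and each of its closed points. -/
theorem preservesChart0 {σ : SemilinearAut K F}
    (h : SigmaData π t O1 O2 (SemilinearAut.toRingAut σ)) : PreservesChart π B0 σ :=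
  ⟨fun _ hb => h.map_mem_B0 M hb,
    fun 𝔪 _ hπ𝔪 b hb _ => (h.mem_ideal_iff0 M 𝔪 hπ𝔪 b).mpr hb⟩

/-- an inertia automorphism preserves the chart `B1` and each of its closed points. -/
theorem preservesChart1 {σ : SemilinearAut K F}
    (h : SigmaData π t O1 O2 (SemilinearAut.toRingAut σ)) : PreservesChart π B1 σ :=
  ⟨fun _ hb => h.map_mem_B1 M hb,
    fun 𝔪 _ hπ𝔪 b hb _ => (h.mem_ideal_iff1 M 𝔪 hπ𝔪 b).mpr hb⟩

/-- **(T6)** from `SigmaData` and depth `b + 1` on the two Gauss valuation rings. -/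
theorem smul_sub_mem_cart_of_sigmaData {σ : SemilinearAut K F}
    (h : SigmaData π t O1 O2 (SemilinearAut.toRingAut σ))
    (h' : SigmaData π t O1 O2 (SemilinearAut.toRingAut σ⁻¹)) {b : ℕ}
    (h1 : IsRamAt O1 (algebraMap R F π) (b + 1) (SemilinearAut.toRingAut σ))
    (h2 : IsRamAt O2 (algebraMap R F π) (b + 1) (SemilinearAut.toRingAut σ))
    {θ : F} (hθ1 : θ ∈ O1) (hθ2 : θ ∈ O2)
    (hπσ : σ • (algebraMap R F π) = algebraMap R F π * (1 + θ * algebraMap R F π ^ b))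
    {n : ℕ} {x : Pic0 K F}
    (hx : x ∈ Cart π B0 B1 O1 O2 (pi_mem_O1 M) (pi_mem_O2 M) n) :
    σ • x - x ∈ Cart π B0 B1 O1 O2 (pi_mem_O1 M) (pi_mem_O2 M) (n + b) :=
  smul_sub_mem_cart (preservesChart0 M h) (preservesChart0 M h') (preservesChart1 M h)
    (preservesChart1 M h') (fun y hy => h1.sub_mem y hy) (fun y hy => h2.sub_mem y hy)
    hθ1 hθ2 hπσ hx

/-- **(T1')** from `SigmaData`. -/
theorem smul_sub_nsmul_mem_cart_of_sigmaData {σ : SemilinearAut K F}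
    (h : SigmaData π t O1 O2 (SemilinearAut.toRingAut σ))
    (h' : SigmaData π t O1 O2 (SemilinearAut.toRingAut σ⁻¹))
    {ε : F} (hε1 : ε ∈ O1) (hε2 : ε ∈ O2)
    (hπσ : σ • (algebraMap R F π) = algebraMap R F π * ε)
    {n : ℕ} (hn : 1 ≤ n) {c : ℕ}
    (hεc1 : ∃ d ∈ O1, ε ^ n - (c : F) = algebraMap R F π * d)
    (hεc2 : ∃ d ∈ O2, ε ^ n - (c : F) = algebraMap R F π * d)
    {x : Pic0 K F} (hx : x ∈ Cart π B0 B1 O1 O2 (pi_mem_O1 M) (pi_mem_O2 M) n) :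
    σ • x - c • x ∈ Cart π B0 B1 O1 O2 (pi_mem_O1 M) (pi_mem_O2 M) (n + 1) :=
  smul_sub_nsmul_mem_cart (preservesChart0 M h) (preservesChart0 M h') (preservesChart1 M h)
    (preservesChart1 M h') (fun y hy => h.inert1.sub_mem y hy) (fun y hy => h.inert2.sub_mem y hy)
    hε1 hε2 hπσ hn hεc1 hεc2 hx

end Abstract

/-! ### The model of record -/

section Model

open Fermat.Agent.RED.Interface4 Fermat.Agent.RED.PUR.GaussGen8 Fermat.Agent.RED.BASE.EtaQuot12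
  Fermat.Agent.ES.N34.GalBase21 Fermat.Agent.ES.N34.GalConc21 Fermat.Agent.ES.N34.GalModel21
  Fermat.Agent.ES.N34

variable {A : ValuationSubring Qbar} {K : IntermediateField ℚ Qbar} [Normal ℚ K]
  (M' q : ℕ) [NeZero M'] [NeZero q]

theorem galK_inv (M : ℕ) (τ : Qbar ≃ₐ[ℚ] Qbar) : galK K M τ⁻¹ = (galK K M τ)⁻¹ := by
  unfold galK
  rw [resK_inv, map_inv]

/-- the action of `τ` on the image of an element of `A ∩ K`. -/
theorem galK_smul_algebraMap (M : ℕ) {τ : Qbar ≃ₐ[ℚ] Qbar}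
    (hτ : τ ∈ A.decompositionSubgroup ℚ) (r : ↥(AK A K)) :
    galK K M τ • (algebraMap ↥(AK A K) ↥(FK M K) r) =
      algebraMap ↥(AK A K) ↥(FK M K) ⟨resK K τ (r : K), resK_mem_AK A K hτ r.2⟩ :=
  arithmeticRingAut_algebraMap (modularFunctionFieldFull M) (resK K τ) (r : K)

set_option synthInstance.maxHeartbeats 400000 in
/-- **(T6) for the model of record**: `τ ∈ I_A` of depth `b + 1` on `A ∩ K` maps `Cart n` into
`Cart (n + b)` by `τ - 1`. -/
theorem t6_model {n₀ e : ℕ} [NeZero n₀] {τ : Qbar ≃ₐ[ℚ] Qbar}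
    (hτ : τ ∈ A.inertiaSubgroupIn ℚ) {π : ↥(AK A K)} (hπ : IsUnif (AK A K) π) {b : ℕ}
    (hb : RamDepth A K π (b + 1) τ) (hE : FK (M' * q) K ≤ fracField (AK A K))
    (ht : tq (↥K) n₀ e ∈ FK M' K)
    (Mod : NodalTwoChartModel ↥(AK A K) ↥(FK (M' * q) K) π (ModelDefs9.tN q ht)
      (ModelDefs9.B0 A q ht) (ModelDefs9.B1 A q ht) (ModelDefs9.O1 M' q hπ hE)
      (ModelDefs9.O2 M' q hπ hE)) {n : ℕ} {x : Pic0 ↥K ↥(FK (M' * q) K)}
    (hx : x ∈ Cart π (ModelDefs9.B0 A q ht) (ModelDefs9.B1 A q ht) (ModelDefs9.O1 M' q hπ hE)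
      (ModelDefs9.O2 M' q hπ hE) (pi_mem_O1 Mod) (pi_mem_O2 Mod) n) :
    galK K (M' * q) τ • x - x ∈
      Cart π (ModelDefs9.B0 A q ht) (ModelDefs9.B1 A q ht) (ModelDefs9.O1 M' q hπ hE)
        (ModelDefs9.O2 M' q hπ hE) (pi_mem_O1 Mod) (pi_mem_O2 Mod) (n + b) := by
  have hτd := mem_decomposition_of_mem_inertia A hτ
  obtain ⟨θ, hθ⟩ := hb π
  have h' : SigmaData π (ModelDefs9.tN q ht) (ModelDefs9.O1 M' q hπ hE)
      (ModelDefs9.O2 M' q hπ hE) (SemilinearAut.toRingAut (galK K (M' * q) τ)⁻¹) := by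
    rw [← galK_inv]
    exact sigmaDataN M' q (inv_mem hτ) hπ hE ht
  refine smul_sub_mem_cart_of_sigmaData Mod (sigmaDataN M' q hτ hπ hE ht) h'
    (isRamAt_O1 M' q hτ hπ hb hE) (isRamAt_O2 M' q hτ hπ hb hE)
    (θ := algebraMap ↥(AK A K) ↥(FK (M' * q) K) θ)
    (Mod.le_O1_0 _ (Subalgebra.algebraMap_mem _ θ)) (Mod.le_O2_0 _ (Subalgebra.algebraMap_mem _ θ))
    ?_ hx
  rw [galK_smul_algebraMap (M' * q) hτd π, ← map_pow, ← map_mul, ← map_one
    (algebraMap ↥(AK A K) ↥(FK (M' * q) K)), ← map_add, ← map_mul]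
  congr 1
  apply Subtype.ext
  show resK K τ (π : K) = (π : K) * (1 + (θ : K) * (π : K) ^ b)
  rw [pow_succ] at hθ
  linear_combination hθ

set_option synthInstance.maxHeartbeats 400000 in
/-- **(T1') for the model of record**: `τ ∈ I_A` with `τ π = π ε` acts on `Cart n / Cart (n + 1)`
through `ε ^ n`: if `ε ^ n ≡ c mod π` (`c : ℕ`) then `τ x - c x ∈ Cart (n + 1)` for `x ∈ Cart n`. -/
theorem t1'_model {n₀ e : ℕ} [NeZero n₀] {τ : Qbar ≃ₐ[ℚ] Qbar}
    (hτ : τ ∈ A.inertiaSubgroupIn ℚ) {π : ↥(AK A K)} (hπ : IsUnif (AK A K) π)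
    (hE : FK (M' * q) K ≤ fracField (AK A K)) (ht : tq (↥K) n₀ e ∈ FK M' K)
    (Mod : NodalTwoChartModel ↥(AK A K) ↥(FK (M' * q) K) π (ModelDefs9.tN q ht)
      (ModelDefs9.B0 A q ht) (ModelDefs9.B1 A q ht) (ModelDefs9.O1 M' q hπ hE)
      (ModelDefs9.O2 M' q hπ hE)) {ε : ↥(AK A K)}
    (hε : resK K τ (π : K) = (π : K) * (ε : K)) {n : ℕ} (hn : 1 ≤ n) {c : ℕ}
    (hεc : ∃ d : ↥(AK A K), (ε : K) ^ n - (c : K) = (π : K) * (d : K))
    {x : Pic0 ↥K ↥(FK (M' * q) K)}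
    (hx : x ∈ Cart π (ModelDefs9.B0 A q ht) (ModelDefs9.B1 A q ht) (ModelDefs9.O1 M' q hπ hE)
      (ModelDefs9.O2 M' q hπ hE) (pi_mem_O1 Mod) (pi_mem_O2 Mod) n) :
    galK K (M' * q) τ • x - c • x ∈
      Cart π (ModelDefs9.B0 A q ht) (ModelDefs9.B1 A q ht) (ModelDefs9.O1 M' q hπ hE)
        (ModelDefs9.O2 M' q hπ hE) (pi_mem_O1 Mod) (pi_mem_O2 Mod) (n + 1) := by
  have hτd := mem_decomposition_of_mem_inertia A hτ
  have h' : SigmaData π (ModelDefs9.tN q ht) (ModelDefs9.O1 M' q hπ hE)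
      (ModelDefs9.O2 M' q hπ hE) (SemilinearAut.toRingAut (galK K (M' * q) τ)⁻¹) := by
    rw [← galK_inv]
    exact sigmaDataN M' q (inv_mem hτ) hπ hE ht
  obtain ⟨d, hd⟩ := hεc
  have hεcF : algebraMap ↥(AK A K) ↥(FK (M' * q) K) ε ^ n - ((c : ℕ) : ↥(FK (M' * q) K)) =
      algebraMap ↥(AK A K) ↥(FK (M' * q) K) π * algebraMap ↥(AK A K) ↥(FK (M' * q) K) d := by
    rw [← map_pow, ← map_natCast (algebraMap ↥(AK A K) ↥(FK (M' * q) K)) c, ← map_sub, ← map_mul]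
    congr 1
    apply Subtype.ext
    show (ε : K) ^ n - ((c : ↥(AK A K)) : K) = (π : K) * (d : K)
    rw [← hd]
    simp
  refine smul_sub_nsmul_mem_cart_of_sigmaData Mod (sigmaDataN M' q hτ hπ hE ht) h'
    (ε := algebraMap ↥(AK A K) ↥(FK (M' * q) K) ε)
    (Mod.le_O1_0 _ (Subalgebra.algebraMap_mem _ ε)) (Mod.le_O2_0 _ (Subalgebra.algebraMap_mem _ ε))
    ?_ hn
    ⟨_, Mod.le_O1_0 _ (Subalgebra.algebraMap_mem _ d), hεcF⟩
    ⟨_, Mod.le_O2_0 _ (Subalgebra.algebraMap_mem _ d), hεcF⟩ hx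
  rw [galK_smul_algebraMap (M' * q) hτd π, ← map_mul]
  congr 1
  apply Subtype.ext
  exact hε

/-! ### The `σ`-side shopping list of `Mon/WildPL43` (T3) for the model of record -/

set_option synthInstance.maxHeartbeats 400000 in
/-- `PreservesChart` for `τ ∈ I_A` and its inverse, on both charts (the hypothesis `pres` of
`WildPL43.slopes_const_of_mem_cart`). -/
theorem pres_model {n₀ e : ℕ} [NeZero n₀] {τ : Qbar ≃ₐ[ℚ] Qbar}
    (hτ : τ ∈ A.inertiaSubgroupIn ℚ) {π : ↥(AK A K)} (hπ : IsUnif (AK A K) π)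
    (hE : FK (M' * q) K ≤ fracField (AK A K)) (ht : tq (↥K) n₀ e ∈ FK M' K)
    (Mod : NodalTwoChartModel ↥(AK A K) ↥(FK (M' * q) K) π (ModelDefs9.tN q ht)
      (ModelDefs9.B0 A q ht) (ModelDefs9.B1 A q ht) (ModelDefs9.O1 M' q hπ hE)
      (ModelDefs9.O2 M' q hπ hE)) :
    ∀ B : Subalgebra ↥(AK A K) ↥(FK (M' * q) K),
      B = ModelDefs9.B0 A q ht ∨ B = ModelDefs9.B1 A q ht →
        PreservesChart π B (galK K (M' * q) τ) ∧ PreservesChart π B (galK K (M' * q) τ)⁻¹ := by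
  have h := sigmaDataN M' q hτ hπ hE ht
  have h' : SigmaData π (ModelDefs9.tN q ht) (ModelDefs9.O1 M' q hπ hE)
      (ModelDefs9.O2 M' q hπ hE) (SemilinearAut.toRingAut (galK K (M' * q) τ)⁻¹) := by
    rw [← galK_inv]
    exact sigmaDataN M' q (inv_mem hτ) hπ hE ht
  rintro B (rfl | rfl)
  · exact ⟨preservesChart0 Mod h, preservesChart0 Mod h'⟩
  · exact ⟨preservesChart1 Mod h, preservesChart1 Mod h'⟩

/-- the hypothesis `smul_pi` of `WildPL43.slopes_const_of_mem_cart`: `τ π = π (1 + θ₀ π ^ b)` with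
`θ₀ ∈ A ∩ K`, from depth `b + 1`. -/
theorem smul_pi_model (M : ℕ) {τ : Qbar ≃ₐ[ℚ] Qbar} (hτ : τ ∈ A.inertiaSubgroupIn ℚ)
    {π : ↥(AK A K)} {b : ℕ} (hb : RamDepth A K π (b + 1) τ) :
    ∃ θ₀ : ↥(AK A K),
      resK K τ (π : K) - (π : K) = (π : K) ^ (b + 1) * (θ₀ : K) ∧
      galK K M τ • (algebraMap ↥(AK A K) ↥(FK M K) π) =
        algebraMap ↥(AK A K) ↥(FK M K) π *
          (1 + algebraMap ↥(AK A K) ↥(FK M K) θ₀ * algebraMap ↥(AK A K) ↥(FK M K) π ^ b) := by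
  have hτd := mem_decomposition_of_mem_inertia A hτ
  obtain ⟨θ, hθ⟩ := hb π
  refine ⟨θ, hθ, ?_⟩
  rw [galK_smul_algebraMap M hτd π, ← map_pow, ← map_mul, ← map_one
    (algebraMap ↥(AK A K) ↥(FK M K)), ← map_add, ← map_mul]
  congr 1
  apply Subtype.ext
  show resK K τ (π : K) = (π : K) * (1 + (θ : K) * (π : K) ^ b)
  rw [pow_succ] at hθ
  linear_combination hθ

/-- exact break: if `τ π - π ∉ π ^ (b + 2) (A ∩ K)` then the `θ₀` of `smul_pi_model` is not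
divisible by `π` (the hypothesis `hθ₀` of `WildPL43.slopes_const_of_mem_cart`). -/
theorem not_dvd_theta {τ : Qbar ≃ₐ[ℚ] Qbar} {π θ₀ : ↥(AK A K)} {b : ℕ}
    (hθ₀ : resK K τ (π : K) - (π : K) = (π : K) ^ (b + 1) * (θ₀ : K))
    (hbreak : ¬ ∃ c : ↥(AK A K), resK K τ (π : K) - (π : K) = (π : K) ^ (b + 2) * (c : K)) :
    ¬ π ∣ θ₀ := by
  rintro ⟨c, rfl⟩
  apply hbreak
  refine ⟨c, ?_⟩
  rw [hθ₀]
  show (π : K) ^ (b + 1) * ((π : K) * (c : K)) = (π : K) ^ (b + 2) * (c : K)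
  ring

end Model

end Fermat.Agent.M1.Mon.GalInst13
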