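/-
Program M1 (S44), chapter MON (helper13): **the `σ`-side of the TRI contract over the model of
record** (`Car/ContractInst43.InertiaAut`, `CycAt`) for the arithmetic Galois action
`galK K N τ` of an inertia element `τ ∈ I_A` on `K·F_N`, `N = M' * q`.

* `inertiaAut_galK` : `τ ∈ I_A` of depth `m` on `A ∩ K` (`GalDepth13.RamDepth`) gives
  `InertiaAut π B0 B1 O1 O2 (galK K N τ) m`;
* `cycAt_galK` : `τ π = π ε`, `ε ^ m ≡ c mod π` gives `CycAt π B0 B1 O1 O2 m (galK K N τ) c`;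
* with helper20's `PeuRamData p A K ϖ`: `ramDepth_one`, `ramDepth_two`, `inertiaAut_one`,
  `inertiaAut_two` (for `τ` fixing `μ_p`), `cycAt_wild` (`e = p (p - 1)`, `m = p`), `cycAt_tame`
  (`e = p - 1`, `m = 1`) for `τ ζ = ζ ^ c`, and `exists_theta` (`τ π = π (1 + θ₀ π)`, `π ∤ θ₀` for
  `τ` fixing `μ_p`, non trivial on `K`) = the hypotheses `hg₀`, `hθ`, `hθ₀` and `CycAt ..` of
  `ContractInst43.wildContract_of_cart` / `ContractNum15.inertia_smul_eq_of_wild_numData`.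
-/
import Mathlib
import Fermat.Agent.M1.Mon.GalInst13
import Fermat.Agent.M1.Car.ContractInst43
import Fermat.Agent.M1.Ram.TameEps20

set_option autoImplicit false
set_option linter.unusedSectionVars false

noncomputable section

open HahnSeries AlgebraicCurve ModularCurve

namespace Fermat.Agent.M1.Mon.InertiaInst13

open Fermat.Agent.RED.Interface4 Fermat.Agent.RED.PUR.GaussGen8 Fermat.Agent.RED.BASE.EtaQuot12
  Fermat.Agent.ES.N34.NodalCore13 Fermat.Agent.ES.N34.GalBase21 Fermat.Agent.ES.N34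
  Fermat.Agent.M1.Car.Defs43 Fermat.Agent.M1.Mod.GalDepth13 Fermat.Agent.M1.Mon.GalInst13
  Fermat.Agent.M1.Car.ContractInst43
  Fermat.Agent.M1.Ram.PeuRamDef20 Fermat.Agent.M1.Ram.PeuRamLemmas20
  Fermat.Agent.M1.Ram.WildCyclic20 Fermat.Agent.M1.Ram.TameEps20

variable {A : ValuationSubring Qbar} {K : IntermediateField ℚ Qbar} [Normal ℚ K]
  (M' q : ℕ) [NeZero M'] [NeZero q]

section Defs

variable {n₀ e : ℕ} [NeZero n₀] {π : ↥(AK A K)} (hπ : IsUnif (AK A K) π)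
  (hE : FK (M' * q) K ≤ fracField (AK A K)) (ht : tq (↥K) n₀ e ∈ FK M' K)
  (Mod : NodalTwoChartModel ↥(AK A K) ↥(FK (M' * q) K) π (ModelDefs9.tN q ht)
    (ModelDefs9.B0 A q ht) (ModelDefs9.B1 A q ht) (ModelDefs9.O1 M' q hπ hE)
    (ModelDefs9.O2 M' q hπ hE))

include Mod

set_option synthInstance.maxHeartbeats 400000 in
/-- **`InertiaAut` for the model of record**: `τ ∈ I_A` of depth `m` on `A ∩ K`. -/
theorem inertiaAut_galK {τ : Qbar ≃ₐ[ℚ] Qbar} (hτ : τ ∈ A.inertiaSubgroupIn ℚ) {m : ℕ}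
    (hm : RamDepth A K π m τ) :
    InertiaAut π (ModelDefs9.B0 A q ht) (ModelDefs9.B1 A q ht) (ModelDefs9.O1 M' q hπ hE)
      (ModelDefs9.O2 M' q hπ hE) (galK K (M' * q) τ) m := by
  have hp := pres_model M' q hτ hπ hE ht Mod
  have h1 := isRamAt_O1 M' q hτ hπ hm hE
  have h2 := isRamAt_O2 M' q hτ hπ hm hE
  exact
    { pres0 := (hp _ (Or.inl rfl)).1
      pres0' := (hp _ (Or.inl rfl)).2
      pres1 := (hp _ (Or.inr rfl)).1
      pres1' := (hp _ (Or.inr rfl)).2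
      ram1 := fun x hx => h1.sub_mem x hx
      ram2 := fun x hx => h2.sub_mem x hx }

set_option synthInstance.maxHeartbeats 400000 in
/-- **`CycAt` for the model of record**: `τ ∈ I_A` (of depth `1`) with `τ π = π ε` and
`ε ^ m ≡ c mod π`. -/
theorem cycAt_galK {τ : Qbar ≃ₐ[ℚ] Qbar} (hτ : τ ∈ A.inertiaSubgroupIn ℚ)
    (h1 : RamDepth A K π 1 τ) {ε : ↥(AK A K)}
    (hε : resK K τ (π : K) = (π : K) * (ε : K)) {m c : ℕ}
    (hεc : ∃ d : ↥(AK A K), (ε : K) ^ m - (c : K) = (π : K) * (d : K)) :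
    CycAt π (ModelDefs9.B0 A q ht) (ModelDefs9.B1 A q ht) (ModelDefs9.O1 M' q hπ hE)
      (ModelDefs9.O2 M' q hπ hE) m (galK K (M' * q) τ) c := by
  have hτd := mem_decomposition_of_mem_inertia A hτ
  obtain ⟨d, hd⟩ := hεc
  have hεcF : algebraMap ↥(AK A K) ↥(FK (M' * q) K) ε ^ m - ((c : ℕ) : ↥(FK (M' * q) K)) =
      algebraMap ↥(AK A K) ↥(FK (M' * q) K) π * algebraMap ↥(AK A K) ↥(FK (M' * q) K) d := by
    rw [← map_pow, ← map_natCast (algebraMap ↥(AK A K) ↥(FK (M' * q) K)) c, ← map_sub, ← map_mul]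
    congr 1
    apply Subtype.ext
    show (ε : K) ^ m - ((c : ↥(AK A K)) : K) = (π : K) * (d : K)
    rw [← hd]
    simp
  refine ⟨inertiaAut_galK M' q hπ hE ht Mod hτ h1, algebraMap ↥(AK A K) ↥(FK (M' * q) K) ε,
    Mod.le_O1_0 _ (Subalgebra.algebraMap_mem _ ε), Mod.le_O2_0 _ (Subalgebra.algebraMap_mem _ ε),
    ?_, ⟨_, Mod.le_O1_0 _ (Subalgebra.algebraMap_mem _ d), hεcF⟩,
    ⟨_, Mod.le_O2_0 _ (Subalgebra.algebraMap_mem _ d), hεcF⟩⟩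
  rw [galK_smul_algebraMap (M' * q) hτd π, ← map_mul]
  congr 1
  apply Subtype.ext
  exact hε

end Defs

/-! ### With the arithmetic discharged from `PeuRamData` -/

section PeuRam

variable {p : ℕ} {ϖ : ↥(AK A K)}

/-- every `τ ∈ I_A` has depth `1`. -/
theorem ramDepth_one (hd : PeuRamData p A K ϖ) {τ : Qbar ≃ₐ[ℚ] Qbar}
    (hτ : τ ∈ A.inertiaSubgroupIn ℚ) : RamDepth A K ϖ 1 τ := by
  intro a
  obtain ⟨b, hb⟩ := tame_depth hd hτ a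
  refine ⟨b, ?_⟩
  rw [hb, pow_one]
  rfl

/-- every `τ ∈ I_A` fixing `μ_p` has depth `2`. -/
theorem ramDepth_two (hd : PeuRamData p A K ϖ) {τ : Qbar ≃ₐ[ℚ] Qbar}
    (hτ : τ ∈ A.inertiaSubgroupIn ℚ) (hμ : FixesMu p τ) : RamDepth A K ϖ 2 τ := by
  intro a
  obtain ⟨b, hb⟩ := hd.depth τ hτ hμ a
  exact ⟨b, hb⟩

/-- **`hθ`, `hθ₀`**: a `τ ∈ I_A` fixing `μ_p` and non trivial on `K` has break exactly `1`:
`τ ϖ = ϖ (1 + θ₀ ϖ)` with `ϖ ∤ θ₀`. -/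
theorem exists_theta (hd : PeuRamData p A K ϖ) {τ : Qbar ≃ₐ[ℚ] Qbar}
    (hτ : τ ∈ A.inertiaSubgroupIn ℚ) (hμ : FixesMu p τ) (hne : resK K τ ≠ 1) :
    ∃ θ₀ : ↥(AK A K), ¬ ϖ ∣ θ₀ ∧
      galK K (M' * q) τ • (algebraMap ↥(AK A K) ↥(FK (M' * q) K) ϖ) =
        algebraMap ↥(AK A K) ↥(FK (M' * q) K) ϖ *
          (1 + algebraMap ↥(AK A K) ↥(FK (M' * q) K) θ₀ *
            algebraMap ↥(AK A K) ↥(FK (M' * q) K) ϖ ^ 1) := by
  have hτd := mem_decomposition_of_mem_inertia A hτ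
  obtain ⟨θ, hθu, hθ⟩ := theta hd hτ hμ hne
  refine ⟨θ, fun hdvd => not_isUnit_unif hd (isUnit_of_dvd_unit hdvd hθu), ?_⟩
  rw [galK_smul_algebraMap (M' * q) hτd ϖ, pow_one, ← map_mul, ← map_one
    (algebraMap ↥(AK A K) ↥(FK (M' * q) K)), ← map_add, ← map_mul]
  congr 1
  apply Subtype.ext
  exact hθ

variable {n₀ e : ℕ} [NeZero n₀] (hπ : IsUnif (AK A K) ϖ)
  (hE : FK (M' * q) K ≤ fracField (AK A K)) (ht : tq (↥K) n₀ e ∈ FK M' K)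
  (Mod : NodalTwoChartModel ↥(AK A K) ↥(FK (M' * q) K) ϖ (ModelDefs9.tN q ht)
    (ModelDefs9.B0 A q ht) (ModelDefs9.B1 A q ht) (ModelDefs9.O1 M' q hπ hE)
    (ModelDefs9.O2 M' q hπ hE))

include Mod

/-- `InertiaAut .. (galK τ) 1` for every `τ ∈ I_A`. -/
theorem inertiaAut_one (hd : PeuRamData p A K ϖ) {τ : Qbar ≃ₐ[ℚ] Qbar}
    (hτ : τ ∈ A.inertiaSubgroupIn ℚ) :
    InertiaAut ϖ (ModelDefs9.B0 A q ht) (ModelDefs9.B1 A q ht) (ModelDefs9.O1 M' q hπ hE)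
      (ModelDefs9.O2 M' q hπ hE) (galK K (M' * q) τ) 1 :=
  inertiaAut_galK M' q hπ hE ht Mod hτ (ramDepth_one hd hτ)

/-- **`hg₀`**: `InertiaAut .. (galK τ) 2` for every `τ ∈ I_A` fixing `μ_p`. -/
theorem inertiaAut_two (hd : PeuRamData p A K ϖ) {τ : Qbar ≃ₐ[ℚ] Qbar}
    (hτ : τ ∈ A.inertiaSubgroupIn ℚ) (hμ : FixesMu p τ) :
    InertiaAut ϖ (ModelDefs9.B0 A q ht) (ModelDefs9.B1 A q ht) (ModelDefs9.O1 M' q hπ hE)
      (ModelDefs9.O2 M' q hπ hE) (galK K (M' * q) τ) 2 :=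
  inertiaAut_galK M' q hπ hE ht Mod hτ (ramDepth_two hd hτ hμ)

/-- **`CycAt .. p`, wild case** (`e = p (p - 1)`): `τ ∈ I_A` with `τ ζ = ζ ^ c`. -/
theorem cycAt_wild (hd : PeuRamData p A K ϖ) (hp : p.Prime)
    (hram : Associated (ϖ ^ (p * (p - 1))) ((p : ℕ) : ↥(AK A K))) {τ : Qbar ≃ₐ[ℚ] Qbar}
    (hτ : τ ∈ A.inertiaSubgroupIn ℚ) {ζ : Qbar} (hζ : ζ ^ p = 1) (hζ1 : ζ ≠ 1) {c : ℕ}
    (hc : τ ζ = ζ ^ c) :
    CycAt ϖ (ModelDefs9.B0 A q ht) (ModelDefs9.B1 A q ht) (ModelDefs9.O1 M' q hπ hE)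
      (ModelDefs9.O2 M' q hπ hE) p (galK K (M' * q) τ) c := by
  obtain ⟨ε, -, hε⟩ := exists_eps hd hp hτ
  obtain ⟨d, hd'⟩ := (eps_pow_sub_of_cyclo hd hp hτ hζ hζ1 c hc hε).1 hram
  refine cycAt_galK M' q hπ hE ht Mod hτ (ramDepth_one hd hτ) (ε := ε) ?_ ⟨d, ?_⟩
  · have := congrArg Subtype.val hε
    simpa using this
  · have := congrArg Subtype.val hd'
    simpa using this

/-- **`CycAt .. 1`, tame case** (`e = p - 1`): `τ ∈ I_A` with `τ ζ = ζ ^ c`. -/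
theorem cycAt_tame (hd : PeuRamData p A K ϖ) (hp : p.Prime)
    (hram : Associated (ϖ ^ (p - 1)) ((p : ℕ) : ↥(AK A K))) {τ : Qbar ≃ₐ[ℚ] Qbar}
    (hτ : τ ∈ A.inertiaSubgroupIn ℚ) {ζ : Qbar} (hζ : ζ ^ p = 1) (hζ1 : ζ ≠ 1) {c : ℕ}
    (hc : τ ζ = ζ ^ c) :
    CycAt ϖ (ModelDefs9.B0 A q ht) (ModelDefs9.B1 A q ht) (ModelDefs9.O1 M' q hπ hE)
      (ModelDefs9.O2 M' q hπ hE) 1 (galK K (M' * q) τ) c := by
  obtain ⟨ε, -, hε⟩ := exists_eps hd hp hτ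
  obtain ⟨d, hd'⟩ := (eps_pow_sub_of_cyclo hd hp hτ hζ hζ1 c hc hε).2 hram
  refine cycAt_galK M' q hπ hE ht Mod hτ (ramDepth_one hd hτ) (ε := ε) ?_ ⟨d, ?_⟩
  · have := congrArg Subtype.val hε
    simpa using this
  · have := congrArg Subtype.val hd'
    simpa using this

end PeuRam

end Fermat.Agent.M1.Mon.InertiaInst13
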