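/-
Program M1 (S44), chapter MON (helper13): **the MON fields of the TRI contract on `J₀(N)(ℚ̄)`.**

`N = M' * q`, `K ⊂ ℚ̄` a finite normal field carrying the model of record
(`NodalTwoChartModel` in the names of `ModelDefs9`), `Cart n` helper43's filtration of
`Pic⁰(K·F_N)` (`Car/Defs43`), `bcPic0 N K : Pic⁰(K·F_N) →+ JZero N` helper25's base change
(`Car/RatClass25`, Galois equivariant by `RatMain25.bcPic0_smul`).

* `JL M' q hπ hE ht Mod n : AddSubgroup (JZero (M' * q))` : the image of `Cart n`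
  (`= J_n(K)` of the plan); `JL_anti`, `JL_mono`;
* `t6_JL` : **(T6)** for `τ ∈ I_A` of depth `b + 1` on `A ∩ K`: `(τ - 1) JL n ⊆ JL (n + b)`;
* `t1'_JL` : **(T1')** `τ v - c v ∈ JL (n + 1)` for `v ∈ JL n` when `τ π = π ε`, `ε ^ n ≡ c mod π`;
* `t6_JL_of_peuRam`, `t1'_JL_wild`, `t1'_JL_tame` : the same with the arithmetic hypotheses
  discharged from helper20's `PeuRamData p A K ϖ` (`Ram/PeuRamDef20`, `TameEps20`): literally the
  fields `T6`, `T1'` of `Tri/ContractL20.WildContract` / `TameContract` for `JL`.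
-/
import Mathlib
import Fermat.Agent.M1.Mon.GalInst13
import Fermat.Agent.M1.Car.RatMain25
import Fermat.Agent.M1.Ram.TameEps20

set_option autoImplicit false
set_option linter.unusedSectionVars false

noncomputable section

open HahnSeries AlgebraicCurve ModularCurve

namespace Fermat.Agent.M1.Mon.JLevel13

open Fermat.Agent.RED.Interface4 Fermat.Agent.RED.PUR.GaussGen8 Fermat.Agent.RED.BASE.EtaQuot12
  Fermat.Agent.ES.N34.NodalCore13 Fermat.Agent.ES.N34.GalBase21 Fermat.Agent.ES.N34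
  Fermat.Agent.M1.Car.Defs43 Fermat.Agent.M1.Mod.GalDepth13 Fermat.Agent.M1.Mon.GalInst13
  Fermat.Agent.M1.Car.RatClass25
  Fermat.Agent.M1.Ram.PeuRamDef20 Fermat.Agent.M1.Ram.PeuRamLemmas20
  Fermat.Agent.M1.Ram.WildCyclic20 Fermat.Agent.M1.Ram.TameEps20

variable {A : ValuationSubring Qbar} {K : IntermediateField ℚ Qbar} [Normal ℚ K]
  [FiniteDimensional ℚ K] (M' q : ℕ) [NeZero M'] [NeZero q]

section Defs

variable {n₀ e : ℕ} [NeZero n₀] {π : ↥(AK A K)} (hπ : IsUnif (AK A K) π)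
  (hE : FK (M' * q) K ≤ fracField (AK A K)) (ht : tq (↥K) n₀ e ∈ FK M' K)
  (Mod : NodalTwoChartModel ↥(AK A K) ↥(FK (M' * q) K) π (ModelDefs9.tN q ht)
    (ModelDefs9.B0 A q ht) (ModelDefs9.B1 A q ht) (ModelDefs9.O1 M' q hπ hE)
    (ModelDefs9.O2 M' q hπ hE))

/-- **`J_n(K) ⊆ J₀(N)(ℚ̄)`**: the classes which are base changes of `K`-rational classes having a
rigidified representative of level `n` on the model over `A ∩ K`. -/
def JL (n : ℕ) : AddSubgroup (JZero (M' * q)) :=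
  (Cart π (ModelDefs9.B0 A q ht) (ModelDefs9.B1 A q ht) (ModelDefs9.O1 M' q hπ hE)
    (ModelDefs9.O2 M' q hπ hE) (pi_mem_O1 Mod) (pi_mem_O2 Mod) n).map (bcPic0 (M' * q) K)

theorem JL_mono {m n : ℕ} (hmn : m ≤ n) : JL M' q hπ hE ht Mod n ≤ JL M' q hπ hE ht Mod m :=
  AddSubgroup.map_mono (cart_anti hmn)

theorem JL_anti (n : ℕ) : JL M' q hπ hE ht Mod (n + 1) ≤ JL M' q hπ hE ht Mod n :=
  JL_mono M' q hπ hE ht Mod (Nat.le_succ n)

/-- the base change intertwines the two Galois actions. -/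
theorem bcPic0_galK_smul (τ : Qbar ≃ₐ[ℚ] Qbar) (x : Pic0 ↥K ↥(FK (M' * q) K)) :
    bcPic0 (M' * q) K (galK K (M' * q) τ • x) = τ • bcPic0 (M' * q) K x :=
  Fermat.Agent.M1.Car.RatMain25.bcPic0_smul (M' * q) K τ x

/-- **(T6) on `J₀(N)(ℚ̄)`**: `τ ∈ I_A` of depth `b + 1` on `A ∩ K` shifts the filtration by `b`. -/
theorem t6_JL {τ : Qbar ≃ₐ[ℚ] Qbar} (hτ : τ ∈ A.inertiaSubgroupIn ℚ) {b : ℕ}
    (hb : RamDepth A K π (b + 1) τ) {n : ℕ} {v : JZero (M' * q)}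
    (hv : v ∈ JL M' q hπ hE ht Mod n) : τ • v - v ∈ JL M' q hπ hE ht Mod (n + b) := by
  obtain ⟨x, hx, rfl⟩ := hv
  refine ⟨galK K (M' * q) τ • x - x, t6_model M' q hτ hπ hb hE ht Mod hx, ?_⟩
  rw [map_sub, bcPic0_galK_smul]

/-- **(T1') on `J₀(N)(ℚ̄)`**: `τ ∈ I_A` with `τ π = π ε`, `ε ^ n ≡ c mod π`, acts on
`JL n / JL (n + 1)` by the scalar `c`. -/
theorem t1'_JL {τ : Qbar ≃ₐ[ℚ] Qbar} (hτ : τ ∈ A.inertiaSubgroupIn ℚ) {ε : ↥(AK A K)}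
    (hε : resK K τ (π : K) = (π : K) * (ε : K)) {n : ℕ} (hn : 1 ≤ n) {c : ℕ}
    (hεc : ∃ d : ↥(AK A K), (ε : K) ^ n - (c : K) = (π : K) * (d : K))
    {v : JZero (M' * q)} (hv : v ∈ JL M' q hπ hE ht Mod n) :
    τ • v - c • v ∈ JL M' q hπ hE ht Mod (n + 1) := by
  obtain ⟨x, hx, rfl⟩ := hv
  refine ⟨galK K (M' * q) τ • x - c • x, t1'_model M' q hτ hπ hE ht Mod hε hn hεc hx, ?_⟩
  rw [map_sub, bcPic0_galK_smul, map_nsmul]

end Defs

/-! ### With the arithmetic discharged from `PeuRamData` -/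

section PeuRam

variable {p : ℕ} {ϖ : ↥(AK A K)} {n₀ e : ℕ} [NeZero n₀] (hπ : IsUnif (AK A K) ϖ)
  (hE : FK (M' * q) K ≤ fracField (AK A K)) (ht : tq (↥K) n₀ e ∈ FK M' K)
  (Mod : NodalTwoChartModel ↥(AK A K) ↥(FK (M' * q) K) ϖ (ModelDefs9.tN q ht)
    (ModelDefs9.B0 A q ht) (ModelDefs9.B1 A q ht) (ModelDefs9.O1 M' q hπ hE)
    (ModelDefs9.O2 M' q hπ hE))

/-- `PeuRamData.depth` is `RamDepth … 2`. -/
theorem ramDepth_two_of_peuRam (hd : PeuRamData p A K ϖ) {τ : Qbar ≃ₐ[ℚ] Qbar}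
    (hτ : τ ∈ A.inertiaSubgroupIn ℚ) (hμ : FixesMu p τ) : RamDepth A K ϖ (1 + 1) τ := by
  intro a
  obtain ⟨b, hb⟩ := hd.depth τ hτ hμ a
  exact ⟨b, hb⟩

/-- **(T6) from `PeuRamData`**: every `τ ∈ I_A` fixing `μ_p` maps `JL n` into `JL (n + 1)` by
`τ - 1` (the field `T6` of `ContractL20.WildContract` at `n = p`). -/
theorem t6_JL_of_peuRam (hd : PeuRamData p A K ϖ) {τ : Qbar ≃ₐ[ℚ] Qbar}
    (hτ : τ ∈ A.inertiaSubgroupIn ℚ) (hμ : FixesMu p τ) {n : ℕ} {v : JZero (M' * q)}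
    (hv : v ∈ JL M' q hπ hE ht Mod n) : τ • v - v ∈ JL M' q hπ hE ht Mod (n + 1) :=
  t6_JL M' q hπ hE ht Mod hτ (ramDepth_two_of_peuRam hd hτ hμ) hv

/-- **(T1') from `PeuRamData`, wild case** (`e = p (p - 1)`): if `τ ζ = ζ ^ c` then
`τ v - c v ∈ JL (p + 1)` for `v ∈ JL p` (the field `T1'` of `ContractL20.WildContract`). -/
theorem t1'_JL_wild (hd : PeuRamData p A K ϖ) (hp : p.Prime)
    (hram : Associated (ϖ ^ (p * (p - 1))) ((p : ℕ) : ↥(AK A K))) {τ : Qbar ≃ₐ[ℚ] Qbar}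
    (hτ : τ ∈ A.inertiaSubgroupIn ℚ) {ζ : Qbar} (hζ : ζ ^ p = 1) (hζ1 : ζ ≠ 1) {c : ℕ}
    (hc : τ ζ = ζ ^ c) {v : JZero (M' * q)} (hv : v ∈ JL M' q hπ hE ht Mod p) :
    τ • v - c • v ∈ JL M' q hπ hE ht Mod (p + 1) := by
  obtain ⟨ε, -, hε⟩ := exists_eps hd hp hτ
  obtain ⟨d, hd'⟩ := (eps_pow_sub_of_cyclo hd hp hτ hζ hζ1 c hc hε).1 hram
  refine t1'_JL M' q hπ hE ht Mod hτ (ε := ε) ?_ hp.one_lt.le ⟨d, ?_⟩ hv
  · have := congrArg Subtype.val hε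
    simpa using this
  · have := congrArg Subtype.val hd'
    simpa using this

/-- **(T1') from `PeuRamData`, tame case** (`e = p - 1`): if `τ ζ = ζ ^ c` then
`τ v - c v ∈ JL 2` for `v ∈ JL 1` (the field `T1'` of `ContractL20.TameContract`). -/
theorem t1'_JL_tame (hd : PeuRamData p A K ϖ) (hp : p.Prime)
    (hram : Associated (ϖ ^ (p - 1)) ((p : ℕ) : ↥(AK A K))) {τ : Qbar ≃ₐ[ℚ] Qbar}
    (hτ : τ ∈ A.inertiaSubgroupIn ℚ) {ζ : Qbar} (hζ : ζ ^ p = 1) (hζ1 : ζ ≠ 1) {c : ℕ}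
    (hc : τ ζ = ζ ^ c) {v : JZero (M' * q)} (hv : v ∈ JL M' q hπ hE ht Mod 1) :
    τ • v - c • v ∈ JL M' q hπ hE ht Mod (1 + 1) := by
  obtain ⟨ε, -, hε⟩ := exists_eps hd hp hτ
  obtain ⟨d, hd'⟩ := (eps_pow_sub_of_cyclo hd hp hτ hζ hζ1 c hc hε).2 hram
  refine t1'_JL M' q hπ hE ht Mod hτ (ε := ε) ?_ le_rfl ⟨d, ?_⟩ hv
  · have := congrArg Subtype.val hε
    simpa using this
  · have := congrArg Subtype.val hd'
    simpa using this

end PeuRam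

end Fermat.Agent.M1.Mon.JLevel13
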